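import Fermat.Agent.Gallagher.Progressions

/-!
# Primes in progressions to a primorial modulus

An exceptional modulus dividing `z#` is squarefree and grows with `z`, so it has a large prime
factor. With this prime left out of the modulus no character sees the exceptional zero, and
Gallagher's theorem gives every class its asymptotic share of `(x, 2 x]`, `x = z# ^ D`.
-/

set_option autoImplicit false

noncomputable section

namespace FA.Maier

open Finset Filter
open FA.Gallagher (primOf family mem_family psiInt mainTerm excG exists_gallagher lfun_eq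
  norm_classSum_sub_le classSum)
open FA.LinnikPrime (lg exists_one_sub_zero_ge clear_of_ne_one)
open scoped Topology Classical ArithmeticFunction.vonMangoldt

/-- `z#`, or `z#` without one prime factor above `K`. -/
def IsSiftModulus (K z q : ℕ) : Prop :=
  q = primorial z ∨ ∃ p : ℕ, p.Prime ∧ K < p ∧ p ≤ z ∧ q * p = primorial z

theorem IsSiftModulus.dvd {K z q : ℕ} (h : IsSiftModulus K z q) : q ∣ primorial z := by
  rcases h with rfl | ⟨p, -, -, -, h⟩
  exacts [dvd_rfl, h ▸ dvd_mul_right q p]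

theorem tendsto_log_primorial :
    Tendsto (fun z : ℕ => Real.log (primorial z)) atTop atTop :=
  Real.tendsto_log_atTop.comp
    (tendsto_atTop_mono (fun z => Nat.cast_le.2 le_primorial_self) tendsto_natCast_atTop_atTop)

/-- The share of each class, for characters which avoid the correction `T`. -/
theorem abs_class_sub_le {q P : ℕ} (hq : q ∣ P) (hP : 0 < P) {X : ℕ} (hX : 1 ≤ X) {ε : ℝ}
    (T : (Σ n : ℕ, DirichletCharacter ℂ n) → ℂ)
    (hT : ∀ χ : DirichletCharacter ℂ q, T (primOf χ) = 0)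
    (hsum : ∑ u ∈ family P, ‖psiInt u X X - mainTerm u X + T u‖ ≤ ε / 2 * X)
    (hrem : (P : ℝ) * (P * Real.log ((X : ℝ) + X)) ≤ ε / 2 * X) {a : ℕ} (ha : a.Coprime q) :
    |(∑ n ∈ (Ioc X (2 * X)).filter (fun n => n ≡ a [MOD q]), Λ n) - (X : ℝ) / q.totient| ≤
      ε * X / q.totient := by
  have hq0 : 0 < q := Nat.pos_of_dvd_of_pos hq hP
  have : NeZero q := ⟨hq0.ne'⟩
  have hX1 : (1 : ℝ) ≤ X := Nat.one_le_cast.2 hX
  have h := norm_classSum_sub_le ((ZMod.isUnit_iff_coprime a q).2 ha) (Nat.le_of_dvd hP hq) hX1 T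
  rw [Finset.sum_eq_zero (fun χ _ => by rw [hT χ, mul_zero]), add_zero,
    ← Complex.ofReal_sub, Complex.norm_real, Real.norm_eq_abs] at h
  have hφ : (0 : ℝ) < q.totient := Nat.cast_pos.2 (Nat.totient_pos.2 hq0)
  have hqP : (q : ℝ) ≤ P := Nat.cast_le.2 (Nat.le_of_dvd hP hq)
  have hrem' : (q.totient : ℝ) * (q * Real.log ((X : ℝ) + X)) ≤ ε / 2 * X :=
    (mul_le_mul ((Nat.cast_le.2 (Nat.totient_le q)).trans hqP)
      (mul_le_mul_of_nonneg_right hqP (Real.log_nonneg (by linarith)))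
      (mul_nonneg (Nat.cast_nonneg q) (Real.log_nonneg (by linarith))) (Nat.cast_nonneg P)).trans
      hrem
  have e : classSum (a : ZMod q) (X : ℝ) =
      ∑ n ∈ (Ioc X (2 * X)).filter (fun n => n ≡ a [MOD q]), Λ n := by
    rw [classSum, ← two_mul, Nat.floor_natCast,
      show (2 : ℝ) * X = ((2 * X : ℕ) : ℝ) by push_cast; ring, Nat.floor_natCast,
      ← Finset.sum_filter]
    refine Finset.sum_congr (Finset.filter_congr fun n _ => ?_) fun _ _ => rfl
    exact ⟨fun h => ((ZMod.natCast_eq_natCast_iff _ _ _).1 h).symm,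
      fun h => (ZMod.natCast_eq_natCast_iff _ _ _).2 h.symm⟩
  rw [← e, sub_div' hφ.ne', abs_div, abs_of_pos hφ, div_le_div_iff_of_pos_right hφ,
    mul_comm _ (q.totient : ℝ)]
  linarith

theorem exists_sift_modulus {ε : ℝ} (hε : 0 < ε) :
    ∃ D₀ : ℕ, ∀ D : ℕ, D₀ ≤ D → ∀ K : ℕ, ∀ᶠ z : ℕ in atTop, ∃ q : ℕ, IsSiftModulus K z q ∧
      ∀ a : ℕ, a.Coprime q →
        |(∑ n ∈ (Ioc (primorial z ^ D) (2 * primorial z ^ D)).filter (fun n => n ≡ a [MOD q]),
            Λ n) - ((primorial z ^ D : ℕ) : ℝ) / q.totient| ≤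
          ε * ((primorial z ^ D : ℕ) : ℝ) / q.totient := by
  obtain ⟨Cg, cg, M, hCg, hcg, hgal⟩ := exists_gallagher
  obtain ⟨G, hG, hsieg⟩ := exists_one_sub_zero_ge
  refine ⟨M + 4 + ⌈2 * Cg / (ε * cg)⌉₊, fun D hD K => ?_⟩
  obtain ⟨θ, hθ⟩ : ∃ θ, θ = Real.exp (-(G * (Real.log (primorial K) + 4))) := ⟨_, rfl⟩
  have hθ0 : 0 < θ := hθ ▸ Real.exp_pos _
  filter_upwards [tendsto_log_primorial.eventually_ge_atTop (D : ℝ),
    tendsto_log_primorial.eventually_gt_atTop (1 / θ),
    eventually_ge_atTop (2 + ⌈2 * ((D : ℝ) + 1) / ε⌉₊)] with z hlD hlθ hz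
  obtain ⟨P, hP⟩ : ∃ P, P = primorial z := ⟨_, rfl⟩
  rw [← hP] at hlD hlθ ⊢
  obtain ⟨X, hX⟩ : ∃ X, X = P ^ D := ⟨_, rfl⟩
  rw [← hX]
  have hzP : z ≤ P := hP ▸ le_primorial_self
  have hP2 : 2 ≤ P := by omega
  have hPR : (2 : ℝ) ≤ P := by exact_mod_cast hP2
  have hX1 : 1 ≤ X := hX ▸ Nat.one_le_pow _ _ (by omega)
  have hXR : (X : ℝ) = (P : ℝ) ^ D := by rw [hX, Nat.cast_pow]
  have hlP : 0 < Real.log P := Real.log_pos (by linarith)
  have hlX : Real.log (X : ℝ) = D * Real.log P := by rw [hXR, Real.log_pow]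
  have hrem : (P : ℝ) * (P * Real.log ((X : ℝ) + X)) ≤ ε / 2 * X := by
    have h1 : Real.log ((X : ℝ) + X) ≤ ((D : ℝ) + 1) * P := by
      rw [← two_mul, Real.log_mul two_ne_zero (Nat.cast_ne_zero.2 (by omega)), hlX]
      have := mul_le_mul_of_nonneg_left (Real.log_le_sub_one_of_pos (show (0 : ℝ) < P by linarith))
        (Nat.cast_nonneg D)
      have hD0 : (0 : ℝ) ≤ D := Nat.cast_nonneg D
      linarith [Real.log_two_lt_d9]
    have h2 : 2 * ((D : ℝ) + 1) ≤ ε * P := by
      rw [mul_comm ε, ← div_le_iff₀ hε]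
      refine (Nat.le_ceil _).trans (Nat.cast_le.2 ?_)
      omega
    have h4 : (P : ℝ) ^ 4 ≤ X := hXR ▸ pow_le_pow_right₀ (by linarith) (by omega)
    calc (P : ℝ) * (P * Real.log ((X : ℝ) + X)) ≤ P * (P * (((D : ℝ) + 1) * P)) :=
          mul_le_mul_of_nonneg_left (mul_le_mul_of_nonneg_left h1 (by positivity)) (by positivity)
      _ ≤ P * (P * (ε / 2 * P * P)) := mul_le_mul_of_nonneg_left (mul_le_mul_of_nonneg_left
          (mul_le_mul_of_nonneg_right (by linarith) (by positivity)) (by positivity))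
          (by positivity)
      _ = ε / 2 * (P : ℝ) ^ 4 := by ring
      _ ≤ _ := mul_le_mul_of_nonneg_left h4 (by linarith)
  have hdec : Cg * Real.exp (-(cg * (Real.log X / Real.log P))) ≤ ε / 2 := by
    rw [hlX, mul_div_cancel_right₀ _ hlP.ne', Real.exp_neg, ← div_eq_mul_inv,
      div_le_iff₀ (Real.exp_pos _)]
    have h1 : 2 * Cg / (ε * cg) ≤ D := (Nat.le_ceil _).trans (Nat.cast_le.2 (by omega))
    rw [div_le_iff₀ (mul_pos hε hcg)] at h1
    have := mul_le_mul_of_nonneg_left (Real.add_one_le_exp (cg * D)) (half_pos hε).le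
    linarith
  have hQx : (P : ℝ) ^ M ≤ X := hXR ▸ pow_le_pow_right₀ (by linarith) (by omega)
  have hlx : Real.log X ≤ Real.log P ^ 2 := by
    rw [hlX, sq]
    exact mul_le_mul_of_nonneg_right hlD hlP.le
  rcases hgal P hP2 X X hQx hlx (div_le_self (Nat.cast_nonneg X) (by linarith)) le_rfl with
    hno | ⟨u₁, hu₁, hne1, hsq, β, hβ0, -, hβQ, hex⟩
  · refine ⟨P, Or.inl hP, fun a ha =>
      abs_class_sub_le dvd_rfl (by omega) hX1 0 (fun _ => rfl) ?_ hrem ha⟩
    have := mul_le_mul_of_nonneg_left hdec (Nat.cast_nonneg X)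
    simp only [Pi.zero_apply, add_zero]
    linarith
  · have : NeZero u₁.1 := ⟨Nat.one_le_iff_ne_zero.1 (mem_family.1 hu₁).1⟩
    obtain ⟨q, hq, hqP, hndvd⟩ : ∃ q, IsSiftModulus K z q ∧ q ∣ P ∧ ¬ u₁.1 ∣ q := by
      by_cases hr : u₁.1 ∣ P
      swap
      · exact ⟨P, Or.inl hP, dvd_rfl, hr⟩
      have hsqP : Squarefree P := hP ▸ squarefree_primorial z
      obtain ⟨p, hp, hKp⟩ : ∃ p ∈ u₁.1.primeFactors, K < p := by
        by_contra! hall
        have hrK : u₁.1 ∣ primorial K := by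
          rw [← Nat.prod_primeFactors_of_squarefree (hsqP.squarefree_of_dvd hr),
            primorial_eq_prod_primesLE]
          refine Finset.prod_dvd_prod_of_subset _ _ _ fun p hp => ?_
          exact Nat.mem_primesLE.2 ⟨hall p hp, Nat.prime_of_mem_primeFactors hp⟩
        rw [lfun_eq] at hβ0
        have h1 := hsieg u₁.1 u₁.2 hne1 hsq β (by rw [← clear_of_ne_one hne1]; exact hβ0)
        have h2 : θ ≤ 1 - β := by
          refine le_trans ?_ h1
          rw [hθ, Real.exp_le_exp, neg_le_neg_iff, lg]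
          refine mul_le_mul_of_nonneg_left ?_ (by linarith)
          linarith [Real.log_le_log (Nat.cast_pos.2 (NeZero.pos u₁.1))
            (Nat.cast_le.2 (Nat.le_of_dvd (primorial_pos K) hrK) : (u₁.1 : ℝ) ≤ _)]
        rw [div_lt_iff₀ hθ0] at hlθ
        have := mul_le_mul_of_nonneg_right h2 hlP.le
        linarith
      obtain ⟨hpp, hpr, -⟩ := Nat.mem_primeFactors.1 hp
      obtain ⟨q, hq⟩ := hpr.trans hr
      refine ⟨q, Or.inr ⟨p, hpp, hKp, (hpp.dvd_primorial_iff).1 (hP ▸ ⟨q, hq⟩),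
        by rw [← hP, hq, mul_comm]⟩, ⟨p, by rw [hq, mul_comm]⟩, fun h => ?_⟩
      exact hpp.not_isUnit (hsqP p (hq ▸ mul_dvd_mul_left p (hpr.trans h)))
    refine ⟨q, hq, fun a ha => abs_class_sub_le hqP (by omega) hX1
      (fun u => if u = u₁ then (excG X X β : ℂ) else 0) (fun χ => ?_) (hex.trans ?_) hrem ha⟩
    · refine if_neg fun h => hndvd ?_
      rw [← h]
      exact χ.conductor_dvd_level
    · have h1 := mul_le_mul_of_nonneg_left hdec (show (0 : ℝ) ≤ X from Nat.cast_nonneg X)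
      have h2 : Cg * ((1 - β) * Real.log P) ≤ Cg := mul_le_of_le_one_right (by linarith) hβQ
      have h3 := mul_le_mul_of_nonneg_right h2
        (show (0 : ℝ) ≤ X * Real.exp (-(cg * (Real.log X / Real.log P))) by positivity)
      linarith

end FA.Maier
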