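import Fermat.Agent.Maier.Buchstab
import Fermat.Agent.Maier.Progressions
import Fermat.Agent.MertensThird.Extreme

/-!
# The density of primes forced by a primorial modulus

`q / φ q` times the numbers up to `y = z ^ u` prime to `q`, divided by `y`, tends to
`exp γ · ω u`: Buchstab's theorem and Mertens' third theorem. The prime left out of `z#` is too
large to matter.
-/

set_option autoImplicit false

noncomputable section

namespace FA.Maier

open Finset Filter FA.SieveConstant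
open FA.ErdosKac (primesUpTo mem_primesUpTo)
open FA.MertensThird (totient_eq_prod tendsto_log_mul_prod)
open scoped Topology Classical

/-- The number of `j ≤ w` prime to `q`. -/
def coprimeCount (q : ℕ) (w : ℝ) : ℕ := #((Icc 1 ⌊w⌋₊).filter fun j => j.Coprime q)

theorem coprimeCount_primorial (z : ℕ) (w : ℝ) :
    coprimeCount (primorial z) w = roughCount w z := by
  refine congrArg card (filter_congr fun n _ => ⟨fun h q hq hqn => ?_, fun h => ?_⟩)
  · rw [Nat.cast_lt]
    by_contra hcon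
    exact hq.one_lt.ne' (Nat.Coprime.eq_one_of_dvd
      (Nat.Coprime.coprime_dvd_left hqn h) (hq.dvd_primorial_iff.2 (not_lt.1 hcon)))
  · refine Nat.coprime_of_dvd fun q hq hqn hqP => ?_
    exact (Nat.cast_lt.1 (h q hq hqn)).not_ge (hq.dvd_primorial_iff.1 hqP)

theorem coprimeCount_mono {q P : ℕ} (h : q ∣ P) (w : ℝ) : coprimeCount P w ≤ coprimeCount q w :=
  card_le_card fun j hj => by
    rw [mem_filter] at hj ⊢
    exact ⟨hj.1, Nat.Coprime.coprime_dvd_right h hj.2⟩

theorem coprimeCount_le (q : ℕ) {w : ℝ} (hw : 0 ≤ w) : (coprimeCount q w : ℝ) ≤ w :=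
  (Nat.cast_le.2 ((card_filter_le _ _).trans (by simp))).trans (Nat.floor_le hw)

theorem coprimeCount_step {q p P : ℕ} (hp : p.Prime) (hqp : q * p = P) {w : ℝ} (hw : 0 ≤ w) :
    coprimeCount q w ≤ coprimeCount P w + coprimeCount q (w / p) := by
  refine (card_le_card (t := (Icc 1 ⌊w⌋₊).filter (fun j => j.Coprime P) ∪
    ((Icc 1 ⌊w / p⌋₊).filter fun j => j.Coprime q).image (p * ·)) fun j hj => ?_).trans
    ((card_union_le _ _).trans (add_le_add le_rfl card_image_le))
  rw [mem_filter, mem_Icc] at hj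
  rw [mem_union, mem_image, mem_filter, mem_Icc]
  by_cases hpj : p ∣ j
  · obtain ⟨i, rfl⟩ := hpj
    refine Or.inr ⟨i, mem_filter.2 ⟨mem_Icc.2 ⟨Nat.pos_of_ne_zero fun h => by simp [h] at hj,
      Nat.le_floor ?_⟩, (Nat.coprime_mul_iff_left.1 hj.2).2⟩, rfl⟩
    rw [le_div_iff₀ (Nat.cast_pos.2 hp.pos), mul_comm, ← Nat.cast_mul]
    exact (Nat.cast_le.2 hj.1.2).trans (Nat.floor_le hw)
  · exact Or.inl ⟨hj.1, hqp ▸ Nat.Coprime.mul_right hj.2 ((hp.coprime_iff_not_dvd.2 hpj).symm)⟩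

/-- A prime left out of the modulus adds little. -/
theorem coprimeCount_le_of_bound {q p P : ℕ} (hp : p.Prime) (hqp : q * p = P) {C s y : ℝ}
    (hC : 0 ≤ C) (hs : 1 ≤ s) (hB : ∀ w : ℝ, s < w → w ≤ y → (coprimeCount P w : ℝ) ≤ C * w) :
    ∀ w : ℝ, 0 ≤ w → w ≤ y → (coprimeCount q w : ℝ) ≤ 2 * C * w + s := by
  have hp2 : (2 : ℝ) ≤ p := by exact_mod_cast hp.two_le
  have key : ∀ n : ℕ, ∀ w : ℝ, 0 ≤ w → w ≤ y → w ≤ s + n →
      (coprimeCount q w : ℝ) ≤ 2 * C * w + s := by
    intro n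
    induction n with
    | zero =>
      intro w hw _ hws
      rw [Nat.cast_zero, add_zero] at hws
      linarith [coprimeCount_le q hw, mul_nonneg hC hw]
    | succ n ih =>
      intro w hw hwy hws
      rw [Nat.cast_succ] at hws
      rcases le_or_gt w (s + n) with h | h
      · exact ih w hw hwy h
      have hwp : w / p ≤ w / 2 := div_le_div_of_nonneg_left hw two_pos hp2
      have h1 := ih (w / p) (by positivity) (by linarith)
        (by linarith [Nat.cast_nonneg (α := ℝ) n])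
      have h2 : (coprimeCount q w : ℝ) ≤ coprimeCount P w + coprimeCount q (w / p) := by
        exact_mod_cast coprimeCount_step hp hqp hw
      have h3 := hB w (by linarith [Nat.cast_nonneg (α := ℝ) n]) hwy
      have h4 := mul_le_mul_of_nonneg_left hwp hC
      linarith
  exact fun w hw hwy => key ⌈w⌉₊ w hw hwy (by linarith [Nat.le_ceil w])

theorem totient_primorial_eq (z : ℕ) :
    ((primorial z).totient : ℝ) / primorial z = ∏ p ∈ primesUpTo z, (1 - (p : ℝ)⁻¹) := by
  rw [totient_eq_prod, mul_div_cancel_left₀ _ (Nat.cast_ne_zero.2 (primorial_ne_zero z))]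
  refine prod_congr ?_ fun _ _ => rfl
  rw [primeFactors_primorial]
  ext p
  simp [Nat.mem_primesLE, mem_primesUpTo, and_comm]

/-- **The forced density.** -/
theorem eventually_density {u : ℝ} (hu : 1 < u) {η : ℝ} (hη : 0 < η) :
    ∃ K : ℕ, ∀ᶠ z : ℕ in atTop, ∀ q : ℕ, IsSiftModulus K z q →
      |(coprimeCount q ((z : ℝ) ^ u) : ℝ) * ((q : ℝ) / q.totient) / (z : ℝ) ^ u -
        buchstab u / Real.exp (-Real.eulerMascheroniConstant)| ≤ η := by
  obtain ⟨E, hE⟩ : ∃ E, E = Real.exp (-Real.eulerMascheroniConstant) := ⟨_, rfl⟩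
  rw [← hE]
  have hE0 : 0 < E := hE ▸ Real.exp_pos _
  obtain ⟨κ, hκ⟩ : ∃ κ, κ = buchstab u / E := ⟨_, rfl⟩
  rw [← hκ]
  obtain ⟨F, hF⟩ : ∃ F, F = countFn u + 1 := ⟨_, rfl⟩
  have hF0 : 0 < F := by rw [hF]; linarith [one_le_countFn u]
  have hκ0 : 0 ≤ κ := by
    rw [hκ]
    refine div_nonneg ?_ hE0.le
    exact nonneg_of_mul_nonneg_right (zero_le_one.trans (one_le_mul_buchstab hu.le)) (by linarith)
  obtain ⟨K, hK2, hKa, hKb⟩ : ∃ K : ℕ, 2 ≤ K ∧ 24 * F / (E * η) ≤ K ∧
      4 * (κ + 1) / η ≤ K :=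
    ⟨2 + ⌈24 * F / (E * η)⌉₊ + ⌈4 * (κ + 1) / η⌉₊, by omega,
      (Nat.le_ceil _).trans (Nat.cast_le.2 (by omega)),
      (Nat.le_ceil _).trans (Nat.cast_le.2 (by omega))⟩
  refine ⟨K, ?_⟩
  have hy : Tendsto (fun z : ℕ => (z : ℝ) ^ u) atTop atTop :=
    (tendsto_rpow_atTop (by linarith)).comp tendsto_natCast_atTop_atTop
  have hM : Tendsto (fun z : ℕ => Real.log z * ∏ p ∈ primesUpTo z, (1 - (p : ℝ)⁻¹)) atTop
      (𝓝 E) := by
    rw [hE]
    refine (tendsto_log_mul_prod.comp tendsto_natCast_atTop_atTop).congr fun z => ?_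
    simp only [Function.comp_apply, Nat.floor_natCast]
  have hf : Tendsto (fun z : ℕ => (coprimeCount (primorial z) ((z : ℝ) ^ u) : ℝ) *
      (((primorial z : ℕ) : ℝ) / (primorial z).totient) / (z : ℝ) ^ u) atTop (𝓝 κ) := by
    have h := ((tendsto_roughRatio hu).comp hy).div (hM.const_mul u) (by positivity)
    have e : countFn u / (u * E) = κ := by
      rw [hκ, countFn, max_eq_left hu.le]
      field_simp
    rw [e] at h
    refine h.congr' ?_
    filter_upwards [eventually_ge_atTop 2] with z hz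
    have hz1 : (1 : ℝ) < z := Nat.one_lt_cast.2 hz
    simp only [Pi.div_apply, Function.comp_apply, roughRatio, coprimeCount_primorial]
    rw [← Real.rpow_mul (by linarith), mul_one_div_cancel (by linarith), Real.rpow_one,
      Real.log_rpow (by linarith), ← totient_primorial_eq]
    have := Real.log_pos hz1
    field_simp
  have hsqrt : Tendsto (fun z : ℕ => 4 * Real.log z / ((z : ℝ) ^ (u / 2) * E)) atTop (𝓝 0) := by
    have h := ((isLittleO_log_rpow_atTop (show 0 < u / 2 by linarith)).tendsto_div_nhds_zero.comp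
      tendsto_natCast_atTop_atTop).const_mul (4 / E)
    rw [mul_zero] at h
    refine h.congr fun z => ?_
    simp only [Function.comp_apply]
    ring
  obtain ⟨W, hW⟩ := eventually_atTop.1
    ((tendsto_roughRatio hu).eventually (eventually_le_nhds (show countFn u < F by linarith)))
  filter_upwards [(Metric.tendsto_nhds.1 hf (min (η / 4) 1) (by positivity)),
    hM.eventually (eventually_ge_nhds (show E / 2 < E by linarith)),
    hsqrt.eventually (eventually_le_nhds (show (0 : ℝ) < η / 4 by positivity)),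
    ((tendsto_rpow_atTop (show 0 < u / 2 by linarith)).comp
      tendsto_natCast_atTop_atTop).eventually_ge_atTop (max W 2),
    eventually_ge_atTop 2] with z hfz hMz hsz hWz hz q hq
  rw [Real.dist_eq, lt_min_iff, abs_lt] at hfz
  obtain ⟨⟨hf1, hf2⟩, hf3⟩ := hfz
  rw [abs_lt] at hf3
  rw [Function.comp_apply, max_le_iff] at hWz
  rw [abs_le]
  rcases hq with rfl | ⟨p, hp, hKp, hpz, hqp⟩
  · constructor <;> linarith
  obtain ⟨P, hP⟩ : ∃ P, P = primorial z := ⟨_, rfl⟩
  obtain ⟨y, hy'⟩ : ∃ y, y = (z : ℝ) ^ u := ⟨_, rfl⟩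
  rw [← hP] at hqp hf1 hf2 hf3
  rw [← hy'] at hf1 hf2 hf3 ⊢
  have hz1 : (1 : ℝ) < z := Nat.one_lt_cast.2 hz
  have hlz := Real.log_pos hz1
  have hy0 : 0 < y := hy' ▸ Real.rpow_pos_of_pos (by linarith) u
  have hs2 : (z : ℝ) ^ (u / 2) * (z : ℝ) ^ (u / 2) = y := by
    rw [hy', ← Real.rpow_add (by linarith), add_halves]
  -- the ratios
  have hP0 : 0 < P := hP ▸ primorial_pos z
  obtain ⟨R, hR⟩ : ∃ R, R = (P : ℝ) / P.totient := ⟨_, rfl⟩
  have hR0 : 0 ≤ R := by rw [hR]; positivity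
  have hRle : R ≤ 2 * Real.log z / E := by
    have hφ : (0 : ℝ) < P.totient := Nat.cast_pos.2 (Nat.totient_pos.2 hP0)
    rw [← totient_primorial_eq, ← hP] at hMz
    rw [hR, div_le_div_iff₀ hφ hE0]
    have h1 := mul_le_mul_of_nonneg_right hMz (Nat.cast_nonneg (α := ℝ) P)
    rw [mul_assoc, div_mul_cancel₀ _ (Nat.cast_ne_zero.2 hP0.ne')] at h1
    linarith
  have hcop : q.Coprime p := by
    refine (hp.coprime_iff_not_dvd.2 fun hpq => hp.not_isUnit ?_).symm
    exact squarefree_primorial z p (hP ▸ hqp ▸ mul_dvd_mul_right hpq p)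
  have hp2 : (2 : ℝ) ≤ p := by exact_mod_cast hp.two_le
  have hq' : (q : ℝ) / q.totient = R * (1 - (p : ℝ)⁻¹) := by
    rw [hR, ← hqp, Nat.totient_mul hcop, Nat.totient_prime hp, Nat.cast_mul, Nat.cast_mul,
      Nat.cast_sub hp.one_le, Nat.cast_one]
    have : (p : ℝ) - 1 ≠ 0 := by linarith
    field_simp
  obtain ⟨t, ht⟩ : ∃ t : ℝ, t = (p : ℝ)⁻¹ := ⟨_, rfl⟩
  have hKp' : (K : ℝ) ≤ p := Nat.cast_le.2 hKp.le
  have hKpos : (0 : ℝ) < K := Nat.cast_pos.2 (by omega)
  have ht0 : 0 ≤ t := by rw [ht]; positivity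
  have ht1 : t ≤ (K : ℝ)⁻¹ := ht ▸ inv_anti₀ hKpos hKp'
  rw [← ht] at hq'
  rw [hq']
  -- the counts
  rw [← hR] at hf1 hf2 hf3
  obtain ⟨NP, hNP⟩ : ∃ NP : ℝ, NP = coprimeCount P y := ⟨_, rfl⟩
  obtain ⟨Nq, hNq⟩ : ∃ Nq : ℝ, Nq = coprimeCount q y := ⟨_, rfl⟩
  rw [← hNP] at hf1 hf2 hf3
  rw [← hNq]
  obtain ⟨C, hC⟩ : ∃ C : ℝ, C = 2 * F / Real.log z := ⟨_, rfl⟩
  have hC0 : 0 ≤ C := hC ▸ div_nonneg (by linarith) hlz.le
  have hB : ∀ w : ℝ, (z : ℝ) ^ (u / 2) < w → w ≤ y → (coprimeCount P w : ℝ) ≤ C * w := by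
    intro w hw1 hw2
    have hw0 : 1 < w := by linarith
    rw [hP, coprimeCount_primorial]
    have hle : w ^ (1 / u) ≤ z := by
      rw [one_div, Real.rpow_inv_le_iff_of_pos (by linarith) (by linarith) (by linarith), ← hy']
      exact hw2
    have h1 : (roughCount w z : ℝ) ≤ roughCount w (w ^ (1 / u)) :=
      Nat.cast_le.2 (roughCount_anti w hle)
    have h2 := hW w (by linarith)
    rw [roughRatio, div_le_iff₀ (by linarith)] at h2
    have h3 : u / 2 * Real.log z ≤ Real.log w := by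
      rw [← Real.log_rpow (by linarith)]
      exact Real.log_le_log (Real.rpow_pos_of_pos (by linarith) _) hw1.le
    have h4 : Real.log z / 2 ≤ Real.log w := by
      have := mul_le_mul_of_nonneg_right hu.le hlz.le
      linarith
    have h5 := mul_le_mul h1 h4 (by linarith) (Nat.cast_nonneg _)
    rw [hC, div_mul_eq_mul_div, le_div_iff₀ hlz]
    linarith
  have hup : Nq ≤ NP + 2 * C * y * t + (z : ℝ) ^ (u / 2) := by
    have h1 : (coprimeCount q y : ℝ) ≤ coprimeCount P y + coprimeCount q (y / p) := by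
      exact_mod_cast coprimeCount_step hp hqp hy0.le
    have h2 := coprimeCount_le_of_bound hp hqp hC0 (by linarith [hWz.2]) hB (y / p)
      (by positivity) (div_le_self hy0.le (by linarith))
    rw [hNq, hNP, ht, show 2 * C * y * (p : ℝ)⁻¹ = 2 * C * (y / p) by ring]
    linarith
  have hlow : NP ≤ Nq := hNP ▸ hNq ▸ Nat.cast_le.2 (coprimeCount_mono ⟨p, hqp.symm⟩ y)
  have hN0 : 0 ≤ NP := hNP ▸ Nat.cast_nonneg _
  have ht' : t ≤ 1 := ht1.trans (inv_le_one_of_one_le₀ (Nat.one_le_cast.2 (by omega)))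
  constructor
  · have h1 : NP * R / y * (1 - t) ≤ Nq * (R * (1 - t)) / y := by
      rw [div_mul_eq_mul_div, mul_assoc]
      exact div_le_div_of_nonneg_right (mul_le_mul_of_nonneg_right hlow
        (mul_nonneg hR0 (by linarith))) hy0.le
    have h2 : NP * R / y * t ≤ η / 4 := by
      refine (mul_le_mul (show NP * R / y ≤ κ + 1 by linarith) ht1 ht0 (by linarith)).trans ?_
      rw [← div_eq_mul_inv, div_le_iff₀ hKpos]
      have := (div_le_iff₀ hη).1 hKb
      linarith
    linarith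
  · have h1 : Nq * (R * (1 - t)) / y ≤ NP * R / y + 2 * C * R * t + (z : ℝ) ^ (u / 2) * R / y := by
      refine (div_le_div_of_nonneg_right (mul_le_mul hup (mul_le_of_le_one_right hR0 (by linarith))
        (mul_nonneg hR0 (by linarith)) (by
          have := mul_nonneg (mul_nonneg hC0 hy0.le) ht0
          have := Real.rpow_nonneg (show (0 : ℝ) ≤ z by linarith) (u / 2)
          linarith)) hy0.le).trans (le_of_eq ?_)
      field_simp
    have h2 : 2 * C * R * t ≤ η / 3 := by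
      have h3 : C * R ≤ 4 * F / E := by
        refine (mul_le_mul_of_nonneg_left hRle hC0).trans (le_of_eq ?_)
        rw [hC]
        field_simp
        ring
      have h4 := mul_le_mul h3 ht1 ht0 (by positivity)
      have h5 : 4 * F / E * (K : ℝ)⁻¹ ≤ η / 6 := by
        rw [← div_eq_mul_inv, div_div, div_le_iff₀ (by positivity)]
        have := (div_le_iff₀ (mul_pos hE0 hη)).1 hKa
        linarith
      linarith
    have h6 : (z : ℝ) ^ (u / 2) * R / y ≤ η / 4 := by
      refine le_trans ?_ hsz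
      obtain ⟨s, hs⟩ : ∃ s, s = (z : ℝ) ^ (u / 2) := ⟨_, rfl⟩
      rw [← hs] at hs2 ⊢
      have hs0 : 0 < s := hs ▸ Real.rpow_pos_of_pos (by linarith) _
      rw [← hs2, mul_div_mul_left _ _ hs0.ne']
      refine (div_le_div_of_nonneg_right hRle hs0.le).trans ?_
      rw [div_div, mul_comm E s]
      gcongr
      norm_num
    linarith

end FA.Maier
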