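import Fermat.Agent.Dickman.Main
import Fermat.Agent.SieveConstant.Buchstab
import Fermat.Agent.Root.SummaryPrimeNumberTheorem

/-!
# Buchstab's theorem

`#{n ≤ x without a prime factor ≤ x ^ (1/u)} ∼ u ω u x / log x` for `u > 1`: Buchstab's identity
over `x ^ (1/u) < p ≤ x ^ (1/2)`, the primes cut at `x ^ (1/v)` for a division of `[2, u]`,
Mertens' theorem on each piece, and induction on `u`. Monotonicity in the sifting limit makes the
pointwise limit enough for the induction.
-/

set_option autoImplicit false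

noncomputable section

namespace FA.Maier

open Finset Filter MeasureTheory FA.SieveConstant
open scoped Topology Classical Nat.Prime

/-- The number of `n ≤ x` all whose prime factors exceed `z`. -/
def roughCount (x z : ℝ) : ℕ :=
  #((Icc 1 ⌊x⌋₊).filter fun n : ℕ => ∀ q : ℕ, q.Prime → q ∣ n → z < (q : ℝ))

/-- The number of `m ≤ x` all whose prime factors are at least `p`. -/
def roughFrom (x : ℝ) (p : ℕ) : ℕ :=
  #((Icc 1 ⌊x⌋₊).filter fun n : ℕ => ∀ q : ℕ, q.Prime → q ∣ n → p ≤ q)

theorem roughCount_anti (x : ℝ) {z z' : ℝ} (h : z ≤ z') : roughCount x z' ≤ roughCount x z :=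
  card_le_card fun n hn => by
    rw [mem_filter] at hn ⊢
    exact ⟨hn.1, fun q hq hqn => h.trans_lt (hn.2 q hq hqn)⟩

theorem roughFrom_le (x : ℝ) {p : ℕ} {t : ℝ} (h : t < p) : roughFrom x p ≤ roughCount x t :=
  card_le_card fun n hn => by
    rw [mem_filter] at hn ⊢
    exact ⟨hn.1, fun q hq hqn => h.trans_le (Nat.cast_le.2 (hn.2 q hq hqn))⟩

theorem le_roughFrom (x : ℝ) {p : ℕ} {t : ℝ} (h : (p : ℝ) ≤ t) : roughCount x t ≤ roughFrom x p :=
  card_le_card fun n hn => by
    rw [mem_filter] at hn ⊢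
    exact ⟨hn.1, fun q hq hqn => (Nat.cast_lt.1 (h.trans_lt (hn.2 q hq hqn))).le⟩

/-- **Buchstab's identity.** -/
theorem roughCount_eq_add {x z w : ℝ} (hx : 0 ≤ x) (hz : 0 ≤ z) (hzw : z ≤ w) :
    roughCount x z = roughCount x w +
      ∑ p ∈ (Ioc ⌊z⌋₊ ⌊w⌋₊).filter Nat.Prime, roughFrom (x / p) p := by
  obtain ⟨A, hA⟩ : ∃ A, A = (Icc 1 ⌊x⌋₊).filter
      fun n : ℕ => ∀ q : ℕ, q.Prime → q ∣ n → z < (q : ℝ) := ⟨_, rfl⟩
  obtain ⟨T, hT⟩ : ∃ T, T = ((Ioc ⌊z⌋₊ ⌊w⌋₊).filter Nat.Prime).sigma fun p : ℕ =>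
      (Icc 1 ⌊x / p⌋₊).filter fun n : ℕ => ∀ q : ℕ, q.Prime → q ∣ n → p ≤ q := ⟨_, rfl⟩
  have hsum : ∑ p ∈ (Ioc ⌊z⌋₊ ⌊w⌋₊).filter Nat.Prime, roughFrom (x / p) p = #T := by
    rw [hT, card_sigma]
    rfl
  have hw' : A.filter (fun n : ℕ => ∀ q : ℕ, q.Prime → q ∣ n → w < (q : ℝ)) =
      (Icc 1 ⌊x⌋₊).filter fun n : ℕ => ∀ q : ℕ, q.Prime → q ∣ n → w < (q : ℝ) := by
    rw [hA, filter_filter]
    refine filter_congr fun n _ => ⟨fun h => h.2, fun h => ⟨fun q hq hqn => ?_, h⟩⟩
    exact hzw.trans_lt (h q hq hqn)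
  have hbij : #T = #(A.filter fun n : ℕ => ¬ ∀ q : ℕ, q.Prime → q ∣ n → w < (q : ℝ)) := by
    refine card_bij (fun a _ => a.1 * a.2) (fun a ha => ?_) (fun a ha b hb h => ?_) fun n hn => ?_
    · rw [hT, mem_sigma, mem_filter, mem_filter, mem_Ioc, mem_Icc] at ha
      obtain ⟨⟨⟨h1, h2⟩, hp⟩, ⟨h3, h4⟩, h5⟩ := ha
      have h6 : ((a.1 * a.2 : ℕ) : ℝ) ≤ x := by
        have := (Nat.cast_le.2 h4).trans (Nat.floor_le (div_nonneg hx (Nat.cast_nonneg a.1)))
        rw [le_div_iff₀ (Nat.cast_pos.2 hp.pos)] at this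
        push_cast
        linarith
      have hzp : z < (a.1 : ℝ) := Nat.lt_of_floor_lt h1
      refine mem_filter.2 ⟨hA ▸ mem_filter.2 ⟨mem_Icc.2 ⟨Nat.mul_pos hp.pos h3, Nat.le_floor h6⟩,
        fun q hq hqn => ?_⟩, fun h => ?_⟩
      · rcases hq.dvd_mul.1 hqn with h' | h'
        · rwa [(Nat.prime_dvd_prime_iff_eq hq hp).1 h']
        · exact hzp.trans_le (Nat.cast_le.2 (h5 q hq h'))
      · have := h a.1 hp (dvd_mul_right _ _)
        have := (Nat.cast_le (α := ℝ).2 h2).trans (Nat.floor_le (hz.trans hzw))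
        linarith
    · rw [hT, mem_sigma, mem_filter, mem_filter, mem_Icc] at ha hb
      obtain ⟨⟨-, hp⟩, -, hca⟩ := ha
      obtain ⟨⟨-, hq⟩, -, hcb⟩ := hb
      have key : ∀ (p q n : ℕ), p.Prime → q.Prime → p ∣ q * n →
          (∀ r : ℕ, r.Prime → r ∣ n → q ≤ r) → q ≤ p := fun p q n hp hq h hn => by
        rcases hp.dvd_mul.1 h with h' | h'
        · rw [(Nat.prime_dvd_prime_iff_eq hp hq).1 h']
        · exact hn p hp h'
      have e : a.1 = b.1 := le_antisymm (key _ _ _ hq hp (h.symm ▸ dvd_mul_right _ _) hca)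
        (key _ _ _ hp hq (h ▸ dvd_mul_right _ _) hcb)
      rw [e] at h
      exact Sigma.ext e (heq_of_eq (Nat.eq_of_mul_eq_mul_left hq.pos h))
    · rw [mem_filter, hA, mem_filter, mem_Icc] at hn
      obtain ⟨⟨⟨hn1, hn2⟩, hnz⟩, hnw⟩ := hn
      push Not at hnw
      obtain ⟨q, hq, hqn, hqw⟩ := hnw
      have hn1' : n ≠ 1 := fun h => hq.not_dvd_one (h ▸ hqn)
      obtain ⟨p, hp⟩ : ∃ p, p = n.minFac := ⟨_, rfl⟩
      have hpp : p.Prime := hp ▸ Nat.minFac_prime hn1'
      have hmin : ∀ r : ℕ, r.Prime → r ∣ n → p ≤ r := fun r hr hrn =>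
        hp ▸ Nat.minFac_le_of_dvd hr.two_le hrn
      obtain ⟨m, rfl⟩ : p ∣ n := hp ▸ Nat.minFac_dvd n
      have hm : 0 < m := Nat.pos_of_ne_zero fun h => by simp [h] at hn1
      refine ⟨⟨p, m⟩, ?_, rfl⟩
      rw [hT, mem_sigma, mem_filter, mem_filter, mem_Ioc, mem_Icc]
      refine ⟨⟨⟨(Nat.floor_lt hz).2 (hnz p hpp (dvd_mul_right _ _)),
        Nat.le_floor ((Nat.cast_le.2 (hmin q hq hqn)).trans hqw)⟩, hpp⟩, ⟨hm, Nat.le_floor ?_⟩,
        fun r hr hrm => hmin r hr (hrm.mul_left p)⟩
      rw [le_div_iff₀ (Nat.cast_pos.2 hpp.pos)]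
      have := (Nat.cast_le.2 hn2).trans (Nat.floor_le hx)
      push_cast at this
      linarith
  rw [hsum, hbij, show roughCount x w = #(A.filter fun n : ℕ =>
    ∀ q : ℕ, q.Prime → q ∣ n → w < (q : ℝ)) by rw [hw']; rfl,
    Finset.card_filter_add_card_filter_not, hA]
  rfl

/-- `u ω u`, continued by `1` below `1`. -/
def countFn (u : ℝ) : ℝ := max u 1 * buchstab (max u 1)

theorem continuous_countFn : Continuous countFn :=
  (by fun_prop : Continuous fun u : ℝ => max u 1).mul
    (continuous_buchstab.comp (by fun_prop))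

theorem countFn_of_le {u : ℝ} (h : u ≤ 2) : countFn u = 1 :=
  buchstab_of_le_two (le_max_right _ _) (max_le h one_le_two)

theorem countFn_eq {u : ℝ} (h : 2 ≤ u) :
    countFn u = 1 + ∫ t in (2 : ℝ)..u, buchstab (t - 1) := by
  rw [countFn, max_eq_left (by linarith), mul_buchstab_eq h]

theorem one_le_mul_buchstab {u : ℝ} (hu : 1 ≤ u) : 1 ≤ u * buchstab u := by
  obtain ⟨n, hn⟩ : ∃ n : ℕ, u ≤ n + 2 := ⟨⌈u⌉₊, by linarith [Nat.le_ceil u]⟩
  induction n generalizing u with
  | zero =>
    rw [Nat.cast_zero, zero_add] at hn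
    exact (buchstab_of_le_two hu hn).ge
  | succ n ih =>
    rw [Nat.cast_succ] at hn
    rcases le_or_gt u 2 with h | h
    · exact (buchstab_of_le_two hu h).ge
    · rw [mul_buchstab_eq h.le]
      refine le_add_of_nonneg_right (intervalIntegral.integral_nonneg h.le fun t ht => ?_)
      have h1 : 1 ≤ t - 1 := by linarith [ht.1]
      exact nonneg_of_mul_nonneg_right (zero_le_one.trans (ih h1 (by linarith [ht.2])))
        (by linarith)

theorem one_le_countFn (u : ℝ) : 1 ≤ countFn u := one_le_mul_buchstab (le_max_right _ _)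

theorem monotone_countFn : Monotone countFn := by
  intro a b hab
  rcases le_or_gt a 2 with ha | ha
  · rw [countFn_of_le ha]
    exact one_le_countFn b
  · have hc : Continuous fun t => buchstab (t - 1) := continuous_buchstab.comp (by fun_prop)
    rw [countFn_eq ha.le, countFn_eq (ha.le.trans hab),
      ← intervalIntegral.integral_add_adjacent_intervals (hc.intervalIntegrable 2 a)
        (hc.intervalIntegrable a b)]
    refine add_le_add le_rfl (le_add_of_nonneg_right
      (intervalIntegral.integral_nonneg hab fun t ht => ?_))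
    exact nonneg_of_mul_nonneg_right (zero_le_one.trans (one_le_mul_buchstab (by linarith [ht.1])))
      (by linarith [ht.1])

/-- The normalised count. -/
def roughRatio (u x : ℝ) : ℝ := roughCount x (x ^ (1 / u)) * Real.log x / x

theorem tendsto_base {u : ℝ} (h1 : 1 < u) (h2 : u ≤ 2) :
    Tendsto (roughRatio u) atTop (𝓝 (countFn u)) := by
  rw [countFn_of_le h2]
  have hlog : Tendsto (fun x : ℝ => Real.log x / x) atTop (𝓝 0) :=
    Real.isLittleO_log_id_atTop.tendsto_div_nhds_zero
  have hdel : 0 < 1 - 1 / u := by rw [sub_pos, div_lt_one (by linarith)]; exact h1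
  have hz : Tendsto (fun x : ℝ => x ^ (1 / u) * (Real.log x / x)) atTop (𝓝 0) := by
    refine (isLittleO_log_rpow_atTop hdel).tendsto_div_nhds_zero.congr' ?_
    filter_upwards [eventually_gt_atTop 0] with x hx
    rw [Real.rpow_sub hx, Real.rpow_one]
    field_simp
  have hpnt := FA.PNT.Summary.prime_number_theorem
  refine tendsto_of_tendsto_of_tendsto_of_le_of_le'
    (g := fun x : ℝ => (π ⌊x⌋₊ : ℝ) * Real.log x / x - x ^ (1 / u) * (Real.log x / x))
    (h := fun x : ℝ => (π ⌊x⌋₊ : ℝ) * Real.log x / x + Real.log x / x)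
    (by simpa using hpnt.sub hz) (by simpa using hpnt.add hlog) ?_ ?_ <;>
    filter_upwards [eventually_ge_atTop 1] with x hx
  · have hlx : 0 ≤ Real.log x / x := div_nonneg (Real.log_nonneg hx) (by linarith)
    have hz0 : 0 ≤ x ^ (1 / u) := by positivity
    have h3 : (π ⌊x⌋₊ : ℝ) - x ^ (1 / u) ≤ roughCount x (x ^ (1 / u)) := by
      have hsub : (Icc 1 ⌊x⌋₊).filter Nat.Prime ⊆
          ((Icc 1 ⌊x⌋₊).filter fun n : ℕ => ∀ q : ℕ, q.Prime → q ∣ n → x ^ (1 / u) < (q : ℝ)) ∪
            Icc 1 ⌊x ^ (1 / u)⌋₊ := fun p hp => by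
        rw [mem_filter, mem_Icc] at hp
        simp only [mem_union, mem_filter, mem_Icc]
        by_cases hpz : x ^ (1 / u) < (p : ℝ)
        · exact Or.inl ⟨hp.1, fun q hq hqp => (Nat.prime_dvd_prime_iff_eq hq hp.2).1 hqp ▸ hpz⟩
        · exact Or.inr ⟨hp.1.1, Nat.le_floor (not_lt.1 hpz)⟩
      have hπ : π ⌊x⌋₊ = #((Icc 1 ⌊x⌋₊).filter Nat.Prime) := by
        rw [Nat.primeCounting, Nat.primeCounting', Nat.count_eq_card_filter_range]
        congr 1
        ext p
        simp only [mem_filter, mem_range, mem_Icc]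
        exact ⟨fun h => ⟨⟨h.2.one_le, by omega⟩, h.2⟩, fun h => ⟨by omega, h.2⟩⟩
      have h4 := Nat.cast_le (α := ℝ).2 ((card_le_card hsub).trans (card_union_le _ _))
      rw [← hπ, Nat.card_Icc, Nat.add_sub_cancel, Nat.cast_add] at h4
      rw [roughCount]
      linarith [Nat.floor_le hz0]
    have := mul_le_mul_of_nonneg_right h3 hlx
    rw [roughRatio, mul_div_assoc, mul_div_assoc]
    linarith
  · have hlx : 0 ≤ Real.log x / x := div_nonneg (Real.log_nonneg hx) (by linarith)
    have h3 : (roughCount x (x ^ (1 / u)) : ℝ) ≤ (π ⌊x⌋₊ : ℝ) + 1 := by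
      have hsub : ((Icc 1 ⌊x⌋₊).filter fun n : ℕ => ∀ q : ℕ, q.Prime → q ∣ n →
          x ^ (1 / u) < (q : ℝ)) ⊆ insert 1 ((range (⌊x⌋₊ + 1)).filter Nat.Prime) := fun n hn => by
        rw [mem_filter, mem_Icc] at hn
        rw [mem_insert, mem_filter, mem_range]
        by_contra hcon
        push Not at hcon
        obtain ⟨hn1, hnp⟩ := hcon
        have hnp' : ¬ n.Prime := hnp (by omega)
        have hp := Nat.minFac_prime hn1
        have h5 := hn.2 _ hp (Nat.minFac_dvd n)
        have h6 := Nat.minFac_sq_le_self (by omega) hnp'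
        have h7 : (x ^ (1 / u)) ^ 2 < ((n.minFac : ℕ) : ℝ) ^ 2 :=
          pow_lt_pow_left₀ h5 (by positivity) two_ne_zero
        have h8 : ((n.minFac : ℕ) : ℝ) ^ 2 ≤ x :=
          le_trans (by exact_mod_cast h6.trans hn.1.2) (Nat.floor_le (by linarith))
        have h9 : x ≤ (x ^ (1 / u)) ^ 2 := by
          rw [← Real.rpow_natCast, ← Real.rpow_mul (by linarith)]
          refine Real.self_le_rpow_of_one_le hx ?_
          rw [div_mul_eq_mul_div, le_div_iff₀ (by linarith)]
          push_cast
          linarith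
        linarith
      have h4 := Nat.cast_le (α := ℝ).2 ((card_le_card hsub).trans (card_insert_le _ _))
      rw [Nat.primeCounting, Nat.primeCounting', Nat.count_eq_card_filter_range]
      push_cast at h4
      exact h4
    have := mul_le_mul_of_nonneg_right h3 hlx
    rw [roughRatio, mul_div_assoc, mul_div_assoc]
    linarith

theorem tendsto_step {u : ℝ} (hu : 2 < u)
    (ih : ∀ w, 1 < w → w ≤ u - 1 → Tendsto (roughRatio w) atTop (𝓝 (countFn w))) :
    Tendsto (roughRatio u) atTop (𝓝 (countFn u)) := by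
  obtain ⟨F, hF⟩ : ∃ F, F = countFn (u - 1) := ⟨_, rfl⟩
  have hF1 : 1 ≤ F := hF ▸ one_le_countFn _
  obtain ⟨D, hD⟩ : ∃ D : ℝ → ℝ, D = fun x =>
      ∑ p ∈ (Ioc ⌊x ^ (1 / u)⌋₊ ⌊x ^ (1 / (2 : ℝ))⌋₊).filter Nat.Prime,
        (roughFrom (x / p) p : ℝ) * Real.log x / x := ⟨_, rfl⟩
  obtain ⟨I, hI⟩ : ∃ I, I = ∫ t in (2 : ℝ)..u, buchstab (t - 1) := ⟨_, rfl⟩
  have hmain : Tendsto D atTop (𝓝 I) := by
    refine Metric.tendsto_nhds.2 fun η hη => ?_
    obtain ⟨K, hK⟩ : ∃ K : ℕ, 1 ≤ K ∧ 8 * F * (u - 2) / η ≤ K :=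
      ⟨⌈8 * F * (u - 2) / η⌉₊ + 1, Nat.le_add_left _ _,
        by push_cast; linarith [Nat.le_ceil (8 * F * (u - 2) / η)]⟩
    obtain ⟨h, hh⟩ : ∃ h, h = (u - 2) / K := ⟨_, rfl⟩
    have hK0 : (0 : ℝ) < K := Nat.cast_pos.2 hK.1
    have hh0 : 0 < h := hh ▸ div_pos (by linarith) hK0
    have hhF : 8 * F * h ≤ η := by
      rw [hh, ← mul_div_assoc, div_le_iff₀ hK0]
      have := (div_le_iff₀ hη).1 hK.2
      linarith
    obtain ⟨v, hv⟩ : ∃ v : ℕ → ℝ, v = fun j : ℕ => 2 + (j : ℝ) * h := ⟨_, rfl⟩
    have hv0 : v 0 = 2 := by simp [hv]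
    have hvK : v K = u := by
      rw [hv, hh]
      field_simp
      ring
    have hvs : ∀ j, v (j + 1) = v j + h := fun j => by
      simp only [hv]
      push_cast
      ring
    have hv2 : ∀ j, 2 ≤ v j := fun j => by
      simp only [hv]
      have : 0 ≤ (j : ℝ) * h := by positivity
      linarith
    have hvle : ∀ j ≤ K, v j ≤ u := fun j hj => by
      rw [← hvK]
      simp only [hv]
      have := mul_le_mul_of_nonneg_right (Nat.cast_le (α := ℝ).2 hj) hh0.le
      linarith
    obtain ⟨ε, hε, hε1, hεu⟩ : ∃ ε, 0 < ε ∧ ε ≤ 1 ∧ ε * u ≤ η / 4 :=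
      ⟨min 1 (η / 4 / u), by positivity, min_le_left _ _, le_trans
        (mul_le_mul_of_nonneg_right (min_le_right _ _) (by linarith))
        (div_mul_cancel₀ _ (by linarith)).le⟩
    obtain ⟨L, hL⟩ : ∃ L : ℕ → ℝ, L = fun j => Real.log (v (j + 1) / v j) := ⟨_, rfl⟩
    have hLb : ∀ j, h / v (j + 1) ≤ L j ∧ L j ≤ h / v j := fun j => by
      have h0 : 0 < v j := by linarith [hv2 j]
      have h1 : 0 < v (j + 1) := by linarith [hv2 (j + 1)]
      rw [hL]
      constructor
      · refine le_trans (le_of_eq ?_) (Real.one_sub_inv_le_log_of_pos (div_pos h1 h0))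
        rw [inv_div, one_sub_div h1.ne']
        congr 1
        linarith [hvs j]
      · refine (Real.log_le_sub_one_of_pos (div_pos h1 h0)).trans (le_of_eq ?_)
        rw [div_sub_one h0.ne']
        congr 1
        linarith [hvs j]
    obtain ⟨a, ha⟩ : ∃ a : ℕ → ℝ, a = fun j => countFn (v j - 1) := ⟨_, rfl⟩
    have ha1 : ∀ j, 1 ≤ a j := fun j => ha ▸ one_le_countFn _
    have ham : ∀ j, a j ≤ a (j + 1) := fun j => by
      rw [ha]
      exact monotone_countFn (by rw [hvs]; linarith)
    have haF : ∀ j ≤ K, a j ≤ F := fun j hj => by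
      rw [ha, hF]
      exact monotone_countFn (by linarith [hvle j hj])
    obtain ⟨up, hup⟩ : ∃ up : ℕ → ℝ, up = fun j => (a (j + 1) + ε) * (v j / (v j - 1)) :=
      ⟨_, rfl⟩
    obtain ⟨dn, hdn⟩ : ∃ dn : ℕ → ℝ,
        dn = fun j => if j = 0 then 0 else (a j - ε) * (v (j + 1) / (v (j + 1) - 1)) := ⟨_, rfl⟩
    obtain ⟨S, hS⟩ : ∃ S : ℕ → ℝ → ℝ,
        S = fun j => Dickman.primeRecip (1 / v (j + 1)) (1 / v j) := ⟨_, rfl⟩
    -- the limits at the finitely many points
    have hev : ∀ᶠ X : ℝ in atTop, ∀ j ∈ Finset.Icc 1 K, |roughRatio (v j - 1) X - a j| ≤ ε := by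
      refine (eventually_all_finset _).2 fun j hj => ?_
      rw [Finset.mem_Icc] at hj
      have h1 : v 1 ≤ v j := by
        simp only [hv]
        have := mul_le_mul_of_nonneg_right (Nat.cast_le (α := ℝ).2 hj.1) hh0.le
        linarith
      have h2 := ih (v j - 1) (by linarith [hvs 0, hv0]) (by linarith [hvle j hj.2])
      filter_upwards [Metric.tendsto_nhds.1 h2 ε hε] with X hX
      rw [Real.dist_eq] at hX
      rw [ha]
      exact hX.le
    obtain ⟨X₀, hX₀⟩ := eventually_atTop.1 hev
    have hbound : ∀ᶠ x : ℝ in atTop,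
        ∑ j ∈ range K, dn j * S j x ≤ D x ∧ D x ≤ ∑ j ∈ range K, up j * S j x := by
      filter_upwards [(tendsto_rpow_atTop (show (0 : ℝ) < 1 / 2 by norm_num)).eventually_ge_atTop
        (max X₀ 2), eventually_gt_atTop 1] with x hX hx1
      have hx0 : (0 : ℝ) < x := by linarith
      have hlx : 0 < Real.log x := Real.log_pos hx1
      obtain ⟨c, hc⟩ : ∃ c : ℕ → ℕ, c = fun j => ⌊x ^ (1 / v j)⌋₊ := ⟨_, rfl⟩
      have hanti : ∀ j < K, c (j + 1) ≤ c j := fun j _ => by
        rw [hc]
        refine Nat.floor_mono (Real.rpow_le_rpow_of_exponent_le hx1.le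
          (one_div_le_one_div_of_le (by linarith [hv2 j]) ?_))
        rw [hvs]
        linarith
      have hDx : D x = ∑ j ∈ range K, ∑ p ∈ (Ioc (c (j + 1)) (c j)).filter Nat.Prime,
          (roughFrom (x / p) p : ℝ) * Real.log x / x := by
        rw [hD, ← (Dickman.sum_Ioc_pieces
          (fun p : ℕ => (roughFrom (x / p) p : ℝ) * Real.log x / x) c K hanti).2]
        simp only [hc, hvK, hv0]
      rw [hDx]
      have hpiece : ∀ j ∈ range K, ∀ p ∈ (Ioc (c (j + 1)) (c j)).filter Nat.Prime,
          dn j * (p : ℝ)⁻¹ ≤ (roughFrom (x / p) p : ℝ) * Real.log x / x ∧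
            (roughFrom (x / p) p : ℝ) * Real.log x / x ≤ up j * (p : ℝ)⁻¹ := by
        intro j hj p hp
        have hjK : j + 1 ≤ K := mem_range.1 hj
        rw [mem_filter, mem_Ioc, hc] at hp
        obtain ⟨⟨hlo, hhi⟩, hpp⟩ := hp
        have hp0 : (0 : ℝ) < p := Nat.cast_pos.2 hpp.pos
        have hlo' : x ^ (1 / v (j + 1)) < p := Nat.lt_of_floor_lt hlo
        have hhi' : (p : ℝ) ≤ x ^ (1 / v j) :=
          (Nat.cast_le.2 hhi).trans (Nat.floor_le (Real.rpow_nonneg hx0.le _))
        have hvj := hv2 j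
        have hvj' := hv2 (j + 1)
        have hX' : max X₀ 2 ≤ x / p := by
          refine hX.trans ?_
          rw [le_div_iff₀ hp0]
          refine (mul_le_mul_of_nonneg_left (hhi'.trans (Real.rpow_le_rpow_of_exponent_le hx1.le
            (one_div_le_one_div_of_le two_pos hvj))) (by positivity)).trans (le_of_eq ?_)
          rw [← Real.rpow_add hx0]
          norm_num
        have hXX : X₀ ≤ x / p := (le_max_left _ _).trans hX'
        have hX2 : 2 ≤ x / p := (le_max_right _ _).trans hX'
        have hXp : 0 < x / p := by linarith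
        have hlX : 0 < Real.log (x / p) := Real.log_pos (by linarith)
        have hlogX : Real.log (x / p) = Real.log x - Real.log p :=
          Real.log_div hx0.ne' hp0.ne'
        have hl1 : Real.log x / v (j + 1) ≤ Real.log p := by
          refine le_trans (le_of_eq ?_) (Real.log_le_log (Real.rpow_pos_of_pos hx0 _) hlo'.le)
          rw [Real.log_rpow hx0]
          ring
        have hl2 : Real.log p ≤ Real.log x / v j := by
          refine (Real.log_le_log hp0 hhi').trans (le_of_eq ?_)
          rw [Real.log_rpow hx0]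
          ring
        have e : ∀ r : ℝ, r * (p : ℝ)⁻¹ = r * (x / p) / x := fun r => by field_simp
        rw [e, e, div_le_div_iff_of_pos_right hx0, div_le_div_iff_of_pos_right hx0]
        have hsmall : (x / p) ^ (1 / (v (j + 1) - 1)) < p := by
          rw [one_div, Real.rpow_inv_lt_iff_of_pos hXp.le hp0.le (by linarith),
            Real.rpow_sub_one hp0.ne']
          refine div_lt_div_of_pos_right ?_ hp0
          have := Real.rpow_lt_rpow (Real.rpow_nonneg hx0.le _) hlo'
            (show 0 < v (j + 1) by linarith)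
          rwa [one_div, Real.rpow_inv_rpow hx0.le (by linarith)] at this
        constructor
        · rcases Nat.eq_zero_or_pos j with rfl | hj0
          · simp only [hdn, if_true, zero_mul]
            positivity
          have hlarge : (p : ℝ) ≤ (x / p) ^ (1 / (v j - 1)) := by
            rw [one_div, Real.le_rpow_inv_iff_of_pos hp0.le hXp.le (by linarith),
              Real.rpow_sub_one hp0.ne']
            refine div_le_div_of_nonneg_right ?_ hp0.le
            have := Real.rpow_le_rpow hp0.le hhi' (show 0 ≤ v j by linarith)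
            rwa [one_div, Real.rpow_inv_rpow hx0.le (by linarith)] at this
          have h1 := (abs_le.1 (hX₀ _ hXX j (Finset.mem_Icc.2 ⟨hj0, by omega⟩))).1
          have h2 : (roughCount (x / p) ((x / p) ^ (1 / (v j - 1))) : ℝ) ≤ roughFrom (x / p) p :=
            Nat.cast_le.2 (le_roughFrom _ hlarge)
          rw [roughRatio] at h1
          have h3 : (a j - ε) * (x / p) ≤ (roughFrom (x / p) p : ℝ) * Real.log (x / p) := by
            refine le_trans ?_ (mul_le_mul_of_nonneg_right h2 hlX.le)
            rw [← le_div_iff₀ hXp]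
            linarith
          have h4 : Real.log (x / p) * (v (j + 1) / (v (j + 1) - 1)) ≤ Real.log x := by
            rw [← mul_div_assoc, div_le_iff₀ (by linarith), hlogX]
            have := (div_le_iff₀ (show 0 < v (j + 1) by linarith)).1 hl1
            linarith
          simp only [hdn, if_neg hj0.ne']
          calc (a j - ε) * (v (j + 1) / (v (j + 1) - 1)) * (x / p)
              = (a j - ε) * (x / p) * (v (j + 1) / (v (j + 1) - 1)) := by ring
            _ ≤ (roughFrom (x / p) p : ℝ) * Real.log (x / p) * (v (j + 1) / (v (j + 1) - 1)) :=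
                mul_le_mul_of_nonneg_right h3 (div_nonneg (by linarith) (by linarith))
            _ ≤ _ := by
                rw [mul_assoc]
                exact mul_le_mul_of_nonneg_left h4 (Nat.cast_nonneg _)
        · have h1 := (abs_le.1 (hX₀ _ hXX (j + 1) (Finset.mem_Icc.2 ⟨by omega, hjK⟩))).2
          have h2 : (roughFrom (x / p) p : ℝ) ≤
              roughCount (x / p) ((x / p) ^ (1 / (v (j + 1) - 1))) :=
            Nat.cast_le.2 (roughFrom_le _ hsmall)
          rw [roughRatio] at h1
          have h3 : (roughFrom (x / p) p : ℝ) * Real.log (x / p) ≤ (a (j + 1) + ε) * (x / p) := by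
            refine (mul_le_mul_of_nonneg_right h2 hlX.le).trans ?_
            rw [← div_le_iff₀ hXp]
            linarith
          have h4 : Real.log x ≤ Real.log (x / p) * (v j / (v j - 1)) := by
            rw [← mul_div_assoc, le_div_iff₀ (by linarith), hlogX]
            have := (le_div_iff₀ (show 0 < v j by linarith)).1 hl2
            linarith
          simp only [hup]
          calc (roughFrom (x / p) p : ℝ) * Real.log x
              ≤ (roughFrom (x / p) p : ℝ) * Real.log (x / p) * (v j / (v j - 1)) := by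
                rw [mul_assoc]
                exact mul_le_mul_of_nonneg_left h4 (Nat.cast_nonneg _)
            _ ≤ (a (j + 1) + ε) * (x / p) * (v j / (v j - 1)) :=
                mul_le_mul_of_nonneg_right h3 (div_nonneg (by linarith) (by linarith))
            _ = _ := by ring
      constructor <;> refine sum_le_sum fun j hj => ?_
      · simp only [hS, Dickman.primeRecip, mul_sum]
        simp only [hc] at hpiece
        simp only [hc]
        exact sum_le_sum fun p hp => (hpiece j hj p hp).1
      · simp only [hS, Dickman.primeRecip, mul_sum]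
        simp only [hc] at hpiece
        simp only [hc]
        exact sum_le_sum fun p hp => (hpiece j hj p hp).2
    have hSlim : ∀ j, Tendsto (S j) atTop (𝓝 (L j)) := fun j => by
      have hvj : 0 < v j := by linarith [hv2 j]
      have hvj' : 0 < v (j + 1) := by linarith [hv2 (j + 1)]
      have := Dickman.tendsto_primeRecip (one_div_pos.2 hvj')
        (one_div_le_one_div_of_le hvj (by rw [hvs]; linarith))
      rw [hS, hL]
      convert this using 2
      field_simp
    have hupLim := tendsto_finsetSum (range K) fun j _ => (hSlim j).const_mul (up j)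
    have hdnLim := tendsto_finsetSum (range K) fun j _ => (hSlim j).const_mul (dn j)
    -- the Riemann sums
    obtain ⟨b, hb⟩ : ∃ b : ℕ → ℝ, b = fun j => v j - 1 := ⟨_, rfl⟩
    obtain ⟨J, hJ⟩ : ∃ J : ℕ → ℝ, J = fun j => ∫ t in (v j)..(v (j + 1)), buchstab (t - 1) :=
      ⟨_, rfl⟩
    have hcont : Continuous fun t => buchstab (t - 1) := continuous_buchstab.comp (by fun_prop)
    have hJsum : ∑ j ∈ range K, J j = I := by
      rw [hJ, intervalIntegral.sum_integral_adjacent_intervals
        fun j _ => hcont.intervalIntegrable _ _, hv0, hvK, hI]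
    have hb1 : ∀ j, 1 ≤ b j := fun j => by
      rw [hb]
      linarith [hv2 j]
    have hbs : ∀ j, b (j + 1) = b j + h := fun j => by
      simp only [hb, hvs]
      ring
    have hJb : ∀ j, a j * h / b (j + 1) ≤ J j ∧ J j ≤ a (j + 1) * h / b j := fun j => by
      have hle : v j ≤ v (j + 1) := by rw [hvs]; linarith
      have hconst : ∀ r : ℝ, ∫ _t in (v j)..(v (j + 1)), r = r * h := fun r => by
        rw [intervalIntegral.integral_const, hvs, smul_eq_mul]
        ring
      have hval : ∀ t ∈ Set.Icc (v j) (v (j + 1)),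
          buchstab (t - 1) = countFn (t - 1) / (t - 1) := fun t ht => by
        have : 1 ≤ t - 1 := by linarith [ht.1, hv2 j]
        rw [countFn, max_eq_left this, mul_div_cancel_left₀ _ (by linarith)]
      rw [hJ, mul_div_right_comm, mul_div_right_comm, ← hconst, ← hconst]
      constructor
      · refine intervalIntegral.integral_mono_on hle intervalIntegrable_const
          (hcont.intervalIntegrable _ _) fun t ht => ?_
        rw [hval t ht, ha]
        exact div_le_div₀ (zero_le_one.trans (one_le_countFn _))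
          (monotone_countFn (by linarith [ht.1])) (by linarith [ht.1, hv2 j])
          (by rw [hb]; linarith [ht.2])
      · refine intervalIntegral.integral_mono_on hle (hcont.intervalIntegrable _ _)
          intervalIntegrable_const fun t ht => ?_
        rw [hval t ht, ha]
        exact div_le_div₀ (zero_le_one.trans (one_le_countFn _))
          (monotone_countFn (by linarith [ht.2])) (by linarith [hb1 j])
          (by rw [hb]; linarith [ht.1])
    obtain ⟨δ, hδ⟩ : ∃ δ : ℕ → ℝ,
        δ = fun j => (a (j + 1) - a j) + F * (1 / b j - 1 / b (j + 1)) := ⟨_, rfl⟩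
    have hδb : ∀ j ∈ range K, a (j + 1) * h / b j - a j * h / b (j + 1) ≤ h * δ j := by
      intro j hj
      rw [mem_range] at hj
      have h1 := hb1 j
      have h2 := hb1 (j + 1)
      have h3 : 0 ≤ 1 / b j - 1 / b (j + 1) :=
        sub_nonneg.2 (one_div_le_one_div_of_le (by linarith) (by linarith [hbs j]))
      have h4 : a (j + 1) * (1 / b j) - a j * (1 / b (j + 1)) ≤ δ j := by
        rw [hδ]
        have h5 := mul_le_mul_of_nonneg_right (haF j hj.le) h3
        have h6 := mul_le_of_le_one_right (sub_nonneg.2 (ham j))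
          (show 1 / b j ≤ 1 from (div_le_one (by linarith)).2 h1)
        linarith
      refine le_trans (le_of_eq ?_) (mul_le_mul_of_nonneg_left h4 hh0.le)
      ring
    have hδsum : ∑ j ∈ range K, δ j ≤ 2 * F := by
      rw [hδ, sum_add_distrib, sum_range_sub a, ← mul_sum, sum_range_sub' fun j => 1 / b j]
      have h1 := mul_le_of_le_one_right (zero_le_one.trans hF1) (show 1 / b 0 - 1 / b K ≤ 1 by
        have := (div_le_one (show 0 < b 0 by linarith [hb1 0])).2 (hb1 0)
        have : 0 ≤ 1 / b K := by have := hb1 K; positivity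
        linarith)
      linarith [haF K le_rfl, ha1 0]
    have hδh : h * ∑ j ∈ range K, δ j ≤ h * (2 * F) := mul_le_mul_of_nonneg_left hδsum hh0.le
    have hbsum : ∑ j ∈ range K, h / b j ≤ u := by
      refine (sum_le_sum fun j _ => div_le_self hh0.le (hb1 j)).trans ?_
      rw [sum_const, card_range, nsmul_eq_mul, hh, mul_div_cancel₀ _ hK0.ne']
      linarith
    have hbsum' : ε * ∑ j ∈ range K, h / b j ≤ η / 4 :=
      (mul_le_mul_of_nonneg_left hbsum hε.le).trans hεu
    have hAup : ∑ j ∈ range K, up j * L j < I + η := by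
      have h1 : ∑ j ∈ range K, up j * L j ≤ ∑ j ∈ range K, (J j + h * δ j + ε * (h / b j)) :=
        sum_le_sum fun j hj => by
          have hvj := hv2 j
          have h0 : 0 ≤ (a (j + 1) + ε) * (v j / (v j - 1)) :=
            mul_nonneg (by linarith [ha1 (j + 1)]) (div_nonneg (by linarith) (by linarith))
          simp only [hup]
          refine (mul_le_mul_of_nonneg_left (hLb j).2 h0).trans ?_
          have e : (a (j + 1) + ε) * (v j / (v j - 1)) * (h / v j) =
              a (j + 1) * h / b j + ε * (h / b j) := by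
            simp only [hb]
            field_simp
          linarith [(hJb j).1, hδb j hj]
      rw [sum_add_distrib, sum_add_distrib, hJsum, ← mul_sum, ← mul_sum] at h1
      linarith
    have hAdn : I - η < ∑ j ∈ range K, dn j * L j := by
      have h1 : ∑ j ∈ range K, (J j - h * δ j - ε * (h / b j) - if j = 0 then h * F else 0) ≤
          ∑ j ∈ range K, dn j * L j :=
        sum_le_sum fun j hj => by
          simp only [hdn]
          split_ifs with hj0
          · subst hj0
            have h2 := hδb 0 hj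
            have h3 : a 0 * h / b (0 + 1) ≤ h * F :=
              (div_le_self (mul_nonneg (by linarith [ha1 0]) hh0.le) (hb1 _)).trans
                ((mul_le_mul_of_nonneg_right (haF 0 (Nat.zero_le K)) hh0.le).trans
                  (mul_comm _ _).le)
            have h4 : 0 ≤ ε * (h / b 0) :=
              mul_nonneg hε.le (div_nonneg hh0.le (by linarith [hb1 0]))
            linarith [(hJb 0).2]
          · have hvj := hv2 (j + 1)
            have h0 : 0 ≤ (a j - ε) * (v (j + 1) / (v (j + 1) - 1)) :=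
              mul_nonneg (by linarith [ha1 j]) (div_nonneg (by linarith) (by linarith))
            refine le_trans ?_ (mul_le_mul_of_nonneg_left (hLb j).1 h0)
            have e : (a j - ε) * (v (j + 1) / (v (j + 1) - 1)) * (h / v (j + 1)) =
                a j * h / b (j + 1) - ε * (h / b (j + 1)) := by
              simp only [hb]
              field_simp
            have h5 : ε * (h / b (j + 1)) ≤ ε * (h / b j) := mul_le_mul_of_nonneg_left
              (div_le_div_of_nonneg_left hh0.le (by linarith [hb1 j]) (by linarith [hbs j])) hε.le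
            linarith [(hJb j).2, hδb j hj]
      rw [sum_sub_distrib, sum_sub_distrib, sum_sub_distrib, hJsum, ← mul_sum, ← mul_sum,
        sum_ite_eq', if_pos (mem_range.2 hK.1)] at h1
      linarith
    filter_upwards [hbound, hupLim.eventually (eventually_lt_nhds hAup),
      hdnLim.eventually (eventually_gt_nhds hAdn)] with x hx hx1 hx2
    rw [Real.dist_eq, abs_lt]
    constructor <;> linarith [hx.1, hx.2]
  have h := (tendsto_base one_lt_two le_rfl).add hmain
  rw [countFn_of_le le_rfl, hI, ← countFn_eq hu.le] at h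
  refine h.congr' ?_
  filter_upwards [eventually_ge_atTop 1] with x hx
  have e := roughCount_eq_add (x := x) (z := x ^ (1 / u)) (w := x ^ (1 / (2 : ℝ))) (by linarith)
    (Real.rpow_nonneg (by linarith) _)
    (Real.rpow_le_rpow_of_exponent_le hx (one_div_le_one_div_of_le two_pos hu.le))
  simp only [hD, roughRatio, e, Nat.cast_add, Nat.cast_sum, add_mul, add_div, sum_mul, sum_div]

/-- **Buchstab's theorem.** -/
theorem tendsto_roughRatio {u : ℝ} (hu : 1 < u) :
    Tendsto (roughRatio u) atTop (𝓝 (countFn u)) := by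
  obtain ⟨n, hn⟩ : ∃ n : ℕ, u ≤ n + 2 := ⟨⌈u⌉₊, by linarith [Nat.le_ceil u]⟩
  induction n generalizing u with
  | zero =>
    rw [Nat.cast_zero, zero_add] at hn
    exact tendsto_base hu hn
  | succ n ih =>
    rw [Nat.cast_succ] at hn
    rcases le_or_gt u 2 with h | h
    · exact tendsto_base hu h
    · exact tendsto_step h fun w hw hwu => ih hw (by linarith)

end FA.Maier
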