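import Fermat.Agent.Gallagher.Progressions

/-!
# Maier's matrix

The rows `(m q, m q + Y]` of `(X, 2 X]`, `q ∣ X`: a column prime to `q` is a whole class, so the
rows hold on average `q / φ q` times the `j ≤ Y` prime to `q`. In a short interval the powers of
primes are few, and an interval can be cut into blocks with at least, or at most, its density.
-/

set_option autoImplicit false

noncomputable section

namespace FA.Maier

open Finset
open scoped Classical Nat.Prime ArithmeticFunction.vonMangoldt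

theorem sum_blocks (g : ℕ → ℝ) (q m₀ k : ℕ) :
    ∑ m ∈ range k, ∑ n ∈ Ioc ((m₀ + m) * q) ((m₀ + m + 1) * q), g n =
      ∑ n ∈ Ioc (m₀ * q) ((m₀ + k) * q), g n := by
  induction k with
  | zero => simp
  | succ k ih =>
    rw [sum_range_succ, ih, ← add_assoc m₀ k 1]
    exact Finset.sum_Ioc_consecutive _ (Nat.mul_le_mul_right q (Nat.le_add_right _ _))
      (Nat.mul_le_mul_right q (Nat.le_add_right _ _))

/-- A column is a class. -/
theorem sum_column (g : ℕ → ℝ) {q j : ℕ} (hj1 : 1 ≤ j) (hjq : j ≤ q) (m₀ : ℕ) :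
    ∑ m ∈ range m₀, g ((m₀ + m) * q + j) =
      ∑ n ∈ (Ioc (m₀ * q) (2 * (m₀ * q))).filter (fun n => n ≡ j [MOD q]), g n := by
  have hq : 0 < q := by omega
  refine sum_nbij' (fun m => (m₀ + m) * q + j) (fun n => (n - j) / q - m₀) (fun m hm => ?_)
    (fun n hn => ?_) (fun m _ => ?_) (fun n hn => ?_) fun m _ => rfl
  · rw [mem_range] at hm
    rw [mem_filter, mem_Ioc]
    have h1 := Nat.mul_le_mul_right q (show m₀ + m + 1 ≤ 2 * m₀ by omega)
    rw [Nat.add_mul, one_mul, mul_assoc] at h1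
    refine ⟨⟨by rw [Nat.add_mul]; omega, by omega⟩, ?_⟩
    rw [Nat.ModEq, Nat.mul_add_mod_self_right]
  · rw [mem_filter, mem_Ioc] at hn
    rw [mem_range]
    have h2 : (n - j) / q < 2 * m₀ := by
      rw [Nat.div_lt_iff_lt_mul hq, mul_assoc]
      omega
    rcases Nat.eq_zero_or_pos m₀ with h | h
    · subst h
      rw [zero_mul] at hn
      omega
    · omega
  · rw [Nat.add_sub_cancel, Nat.mul_div_cancel _ hq]
    omega
  · rw [mem_filter, mem_Ioc] at hn
    rcases Nat.eq_zero_or_pos m₀ with h | h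
    · subst h
      rw [zero_mul] at hn
      omega
    have hjn : j ≤ n := by
      have := Nat.le_mul_of_pos_left q h
      omega
    obtain ⟨k, hk⟩ := (Nat.modEq_iff_dvd' hjn).1 hn.2.symm
    have hk' : m₀ ≤ k := by
      by_contra hlt
      have := Nat.mul_le_mul_left q (show k + 1 ≤ m₀ by omega)
      rw [Nat.mul_add, mul_one, mul_comm q m₀] at this
      omega
    rw [hk, Nat.mul_div_cancel_left _ hq, Nat.add_sub_cancel' hk', mul_comm k q, ← hk,
      Nat.sub_add_cancel hjn]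

/-- **The rows.** -/
theorem exists_rows {X q Y : ℕ} {ε : ℝ} (hq : 0 < q) (hX : 0 < X) (hqX : q ∣ X) (hY : Y ≤ q)
    (hclass : ∀ a : ℕ, a.Coprime q →
      |(∑ n ∈ (Ioc X (2 * X)).filter (fun n => n ≡ a [MOD q]), Λ n) - (X : ℝ) / q.totient| ≤
        ε * X / q.totient)
    (hrem : (q : ℝ) * (q * Real.log ((X : ℝ) + X)) ≤ X) :
    (∃ a : ℕ, X ≤ a ∧ a + Y ≤ 2 * X ∧
        (1 - ε) * ((#((Icc 1 Y).filter fun j => j.Coprime q) : ℝ) * ((q : ℝ) / q.totient)) ≤
          ∑ n ∈ Ioc a (a + Y), Λ n) ∧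
      ∃ a : ℕ, X ≤ a ∧ a + Y ≤ 2 * X ∧ ∑ n ∈ Ioc a (a + Y), Λ n ≤
        (1 + ε) * ((#((Icc 1 Y).filter fun j => j.Coprime q) : ℝ) * ((q : ℝ) / q.totient)) + 1 := by
  have : NeZero q := ⟨hq.ne'⟩
  obtain ⟨m₀, hm⟩ := hqX
  rw [mul_comm] at hm
  subst hm
  have hm0 : 0 < m₀ := Nat.pos_of_mul_pos_right hX
  obtain ⟨J, hJ⟩ : ∃ J, J = (Icc 1 Y).filter fun j => j.Coprime q := ⟨_, rfl⟩
  rw [← hJ]
  obtain ⟨g, hg⟩ : ∃ g : ℕ → ℝ, g = fun n => if n.Coprime q then 0 else Λ n := ⟨_, rfl⟩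
  have hg0 : ∀ n, 0 ≤ g n := fun n => by
    rw [hg]
    dsimp only
    split_ifs
    exacts [le_rfl, ArithmeticFunction.vonMangoldt_nonneg]
  have hsplit : ∀ m, ∑ n ∈ Ioc ((m₀ + m) * q) ((m₀ + m) * q + Y), Λ n =
      ∑ j ∈ J, Λ ((m₀ + m) * q + j) +
        ∑ n ∈ Ioc ((m₀ + m) * q) ((m₀ + m) * q + Y), g n := fun m => by
    rw [← sum_filter_add_sum_filter_not (Ioc ((m₀ + m) * q) ((m₀ + m) * q + Y))
      (fun n => n.Coprime q)]
    congr 1
    · symm
      refine sum_nbij' (fun j => (m₀ + m) * q + j) (fun n => n - (m₀ + m) * q) (fun j hj => ?_)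
        (fun n hn => ?_) (fun j _ => ?_) (fun n hn => ?_) fun j _ => rfl
      · rw [hJ, mem_filter, mem_Icc] at hj
        rw [mem_filter, mem_Ioc, Nat.coprime_mul_right_add_left]
        exact ⟨⟨by omega, by omega⟩, hj.2⟩
      · rw [mem_filter, mem_Ioc] at hn
        rw [hJ, mem_filter, mem_Icc, ← Nat.coprime_mul_right_add_left (n - (m₀ + m) * q) q
          (m₀ + m), Nat.add_sub_cancel' hn.1.1.le]
        exact ⟨⟨by omega, by omega⟩, hn.2⟩
      · omega
      · rw [mem_filter, mem_Ioc] at hn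
        omega
    · rw [sum_filter, hg]
      exact sum_congr rfl fun n _ => by dsimp only; split_ifs <;> rfl
  obtain ⟨T, hT⟩ : ∃ T, T = ∑ m ∈ range m₀, ∑ j ∈ J, Λ ((m₀ + m) * q + j) := ⟨_, rfl⟩
  have hTb : |T - #J * (((m₀ * q : ℕ) : ℝ) / q.totient)| ≤
      #J * (ε * ((m₀ * q : ℕ) : ℝ) / q.totient) := by
    rw [hT, sum_comm, ← nsmul_eq_mul, ← nsmul_eq_mul, ← sum_const, ← sum_const, ← sum_sub_distrib]
    refine (abs_sum_le_sum_abs _ _).trans (sum_le_sum fun j hj => ?_)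
    rw [hJ, mem_filter, mem_Icc] at hj
    rw [sum_column (fun n => Λ n) hj.1.1 (hj.1.2.trans hY)]
    exact hclass j hj.2
  obtain ⟨R, hR⟩ : ∃ R,
      R = ∑ m ∈ range m₀, ∑ n ∈ Ioc ((m₀ + m) * q) ((m₀ + m) * q + Y), g n := ⟨_, rfl⟩
  have hR0 : 0 ≤ R := hR ▸ sum_nonneg fun m _ => sum_nonneg fun n _ => hg0 n
  have hRle : R ≤ q * Real.log (((m₀ * q : ℕ) : ℝ) + ((m₀ * q : ℕ) : ℝ)) := by
    refine le_trans ?_ (FA.Gallagher.sum_not_coprime_le (q := q)
      (x := ((m₀ * q : ℕ) : ℝ)) (Nat.one_le_cast.2 hX))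
    rw [← Nat.cast_add, Nat.floor_natCast, Nat.floor_natCast, sum_filter]
    calc R ≤ ∑ m ∈ range m₀, ∑ n ∈ Ioc ((m₀ + m) * q) ((m₀ + m + 1) * q), g n := by
          rw [hR]
          refine sum_le_sum fun m _ => sum_le_sum_of_subset_of_nonneg
            (Ioc_subset_Ioc_right ?_) fun n _ _ => hg0 n
          rw [add_one_mul]
          omega
      _ = ∑ n ∈ Ioc (m₀ * q) (m₀ * q + m₀ * q), g n := by rw [sum_blocks, add_mul]
      _ = _ := by
          rw [hg]
          exact sum_congr rfl fun n _ => by dsimp only; split_ifs <;> rfl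
  have hrow : ∀ m < m₀, m₀ * q ≤ (m₀ + m) * q ∧ (m₀ + m) * q + Y ≤ 2 * (m₀ * q) := fun m hm => by
    refine ⟨Nat.mul_le_mul_right q (Nat.le_add_right _ _), ?_⟩
    have := Nat.mul_le_mul_right q (show m₀ + m + 1 ≤ 2 * m₀ by omega)
    rw [add_one_mul, mul_assoc] at this
    omega
  have hsum : ∑ m ∈ range m₀, ∑ n ∈ Ioc ((m₀ + m) * q) ((m₀ + m) * q + Y), Λ n = T + R := by
    rw [hT, hR, ← sum_add_distrib]
    exact sum_congr rfl fun m _ => hsplit m
  obtain ⟨V, hV⟩ : ∃ V, V = (#J : ℝ) * ((q : ℝ) / q.totient) := ⟨_, rfl⟩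
  rw [← hV]
  rw [abs_le, show (#J : ℝ) * (((m₀ * q : ℕ) : ℝ) / q.totient) = m₀ * V by
    rw [hV]; push_cast; ring, show (#J : ℝ) * (ε * ((m₀ * q : ℕ) : ℝ) / q.totient) = m₀ * (ε * V) by
    rw [hV]; push_cast; ring] at hTb
  have hne : (range m₀).Nonempty := nonempty_range_iff.2 hm0.ne'
  constructor
  · obtain ⟨m, hm, hle⟩ := exists_le_of_sum_le hne (f := fun _ => (1 - ε) * V) (g := fun m =>
      ∑ n ∈ Ioc ((m₀ + m) * q) ((m₀ + m) * q + Y), Λ n) (by
        rw [hsum, sum_const, card_range, nsmul_eq_mul]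
        linarith [hTb.1])
    rw [mem_range] at hm
    exact ⟨_, (hrow m hm).1, (hrow m hm).2, hle⟩
  · obtain ⟨m, hm, hle⟩ := exists_le_of_sum_le hne (g := fun _ => (1 + ε) * V + 1) (f := fun m =>
      ∑ n ∈ Ioc ((m₀ + m) * q) ((m₀ + m) * q + Y), Λ n) (by
        rw [hsum, sum_const, card_range, nsmul_eq_mul]
        have h1 : (q : ℝ) * Real.log (((m₀ * q : ℕ) : ℝ) + ((m₀ * q : ℕ) : ℝ)) ≤ m₀ := by
          refine le_of_mul_le_mul_left ?_ (Nat.cast_pos.2 hq : (0 : ℝ) < q)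
          rw [Nat.cast_mul] at hrem ⊢
          linarith
        linarith [hTb.2])
    rw [mem_range] at hm
    exact ⟨_, (hrow m hm).1, (hrow m hm).2, hle⟩

/-- The powers of primes in a short interval, one for each exponent. -/
theorem sum_not_prime_short {a Y : ℕ} (ha : Y * Y ≤ a) (ha1 : 1 ≤ a) :
    ∑ n ∈ (Ioc a (a + Y)).filter (fun n => ¬ n.Prime), Λ n ≤
      2 * Real.log ((a + Y : ℕ) : ℝ) ^ 2 := by
  obtain ⟨B, hB⟩ : ∃ B, B = (Ioc a (a + Y)).filter fun n => ¬ n.Prime ∧ IsPrimePow n := ⟨_, rfl⟩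
  have hsum : ∑ n ∈ (Ioc a (a + Y)).filter (fun n => ¬ n.Prime), Λ n = ∑ n ∈ B, Λ n := by
    refine (sum_subset ?_ fun n hn hn' => ?_).symm
    · rw [hB]
      exact monotone_filter_right _ fun n _ hn => hn.1
    · rw [ArithmeticFunction.vonMangoldt_eq_zero_iff]
      intro hpp
      obtain ⟨h1, h2⟩ := mem_filter.1 hn
      exact hn' (hB ▸ mem_filter.2 ⟨h1, h2, hpp⟩)
  have hform : ∀ n ∈ B, ∃ p k : ℕ, p.Prime ∧ 2 ≤ k ∧ p ^ k = n ∧ n.factorization n.minFac = k ∧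
      a < n ∧ n ≤ a + Y := fun n hn => by
    rw [hB, mem_filter, mem_Ioc] at hn
    obtain ⟨⟨h1, h2⟩, hnp, hpp⟩ := hn
    obtain ⟨p, k, hp, hk, rfl⟩ := (isPrimePow_nat_iff n).1 hpp
    refine ⟨p, k, hp, ?_, rfl, ?_, h1, h2⟩
    · by_contra hk2
      obtain rfl : k = 1 := by omega
      exact hnp (by rwa [pow_one])
    · rw [hp.pow_minFac hk.ne', hp.factorization_pow, Finsupp.single_eq_same]
  have hcard : #B ≤ Nat.log 2 (a + Y) := by
    refine le_trans (card_le_card_of_injOn (fun n => n.factorization n.minFac)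
      (t := Icc 1 (Nat.log 2 (a + Y))) (fun n hn => ?_) ?_) (by simp)
    · obtain ⟨p, k, hp, hk, rfl, hf, -, h2⟩ := hform n hn
      dsimp only
      rw [hf, mem_coe, mem_Icc]
      refine ⟨by omega, Nat.le_log_of_pow_le one_lt_two ?_⟩
      exact (Nat.pow_le_pow_left hp.two_le k).trans h2
    · intro n hn m hm hnm
      obtain ⟨p, k, hp, hk, rfl, hf, hn1, hn2⟩ := hform n hn
      obtain ⟨r, l, hr, hl, rfl, hf', hm1, hm2⟩ := hform m hm
      dsimp only at hnm
      rw [hf, hf'] at hnm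
      subst hnm
      have key : ∀ {p r : ℕ}, a < p ^ k → r ^ k ≤ a + Y → r ≤ p := fun {p r} h1 h2 => by
        by_contra hlt
        obtain ⟨i, rfl⟩ : ∃ i, k = i + 1 := ⟨k - 1, by omega⟩
        have h3 : Y ≤ p ^ i := by
          by_contra hY
          have h4 := Nat.mul_lt_mul'' (not_le.1 hY) (not_le.1 hY)
          rcases Nat.eq_zero_or_pos p with hp0 | hp0
          · simp [hp0] at h1
          · have h5 : p ^ (i + 1) ≤ p ^ i * p ^ i := by
              rw [← pow_add]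
              exact Nat.pow_le_pow_right hp0 (by omega)
            omega
        have h6 : (p + 1) ^ (i + 1) ≤ r ^ (i + 1) := Nat.pow_le_pow_left (by omega) _
        have h7 : p ^ (i + 1) + p ^ i ≤ (p + 1) ^ (i + 1) := by
          rw [pow_succ, pow_succ, ← Nat.mul_succ]
          exact Nat.mul_le_mul_right _ (Nat.pow_le_pow_left (Nat.le_succ p) i)
        omega
      rw [le_antisymm (key hm1 hn2) (key hn1 hm2)]
  rw [hsum]
  refine (sum_le_card_nsmul _ _ (Real.log ((a + Y : ℕ) : ℝ)) fun n hn => ?_).trans ?_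
  · obtain ⟨-, -, -, -, -, -, h1, h2⟩ := hform n hn
    exact ArithmeticFunction.vonMangoldt_le_log.trans
      (Real.log_le_log (Nat.cast_pos.2 (by omega)) (Nat.cast_le.2 h2))
  · rw [nsmul_eq_mul, sq, ← mul_assoc]
    have hlog0 : 0 ≤ Real.log ((a + Y : ℕ) : ℝ) := Real.log_natCast_nonneg _
    refine mul_le_mul_of_nonneg_right ?_ hlog0
    refine (Nat.cast_le.2 hcard).trans ?_
    have h := Real.log_le_log (Nat.cast_pos.2 (pow_pos two_pos _) : (0 : ℝ) < _)
      (Nat.cast_le.2 (Nat.pow_log_le_self 2 (show a + Y ≠ 0 by omega)))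
    push_cast at h ⊢
    rw [Real.log_pow] at h
    have := mul_le_mul_of_nonneg_left (show 1 / 2 ≤ Real.log 2 by linarith [Real.log_two_gt_d9])
      (Nat.cast_nonneg (α := ℝ) (Nat.log 2 (a + Y)))
    linarith

theorem card_primes_Ioc {a b : ℕ} (h : a ≤ b) :
    (#((Ioc a b).filter Nat.Prime) : ℝ) = (π b : ℝ) - π a := by
  have e : (range (b + 1)).filter Nat.Prime =
      (range (a + 1)).filter Nat.Prime ∪ (Ioc a b).filter Nat.Prime := by
    rw [← filter_union]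
    congr 1
    ext n
    simp only [mem_union, mem_range, mem_Ioc]
    omega
  have hd : Disjoint ((range (a + 1)).filter Nat.Prime) ((Ioc a b).filter Nat.Prime) := by
    refine disjoint_left.2 fun n h1 h2 => ?_
    simp only [mem_filter, mem_range, mem_Ioc] at h1 h2
    omega
  simp only [Nat.primeCounting, Nat.primeCounting', Nat.count_eq_card_filter_range]
  rw [e, card_union_of_disjoint hd, Nat.cast_add, add_sub_cancel_left]

/-- Primes against `∑ Λ`, both ways. -/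
theorem primes_of_sum {a Y : ℕ} (ha : Y * Y ≤ a) (ha1 : 1 ≤ a) :
    ((π (a + Y) : ℝ) - π a) * Real.log a ≤ ∑ n ∈ Ioc a (a + Y), Λ n ∧
      ∑ n ∈ Ioc a (a + Y), Λ n ≤ ((π (a + Y) : ℝ) - π a) * Real.log ((a + Y : ℕ) : ℝ) +
        2 * Real.log ((a + Y : ℕ) : ℝ) ^ 2 := by
  rw [← card_primes_Ioc (Nat.le_add_right a Y), ← sum_filter_add_sum_filter_not (Ioc a (a + Y))
    Nat.Prime, ← nsmul_eq_mul, ← nsmul_eq_mul]
  constructor
  · refine le_add_of_le_of_nonneg (card_nsmul_le_sum _ _ _ fun n hn => ?_)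
      (sum_nonneg fun n _ => ArithmeticFunction.vonMangoldt_nonneg)
    rw [mem_filter, mem_Ioc] at hn
    rw [ArithmeticFunction.vonMangoldt_apply_prime hn.2]
    exact Real.log_le_log (Nat.cast_pos.2 (by omega)) (Nat.cast_le.2 hn.1.1.le)
  · refine add_le_add (sum_le_card_nsmul _ _ _ fun n hn => ?_) (sum_not_prime_short ha ha1)
    rw [mem_filter, mem_Ioc] at hn
    exact ArithmeticFunction.vonMangoldt_le_log.trans
      (Real.log_le_log (Nat.cast_pos.2 hn.2.pos) (Nat.cast_le.2 hn.1.2))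

/-- Some block of length `L` is at least as dense as the interval. -/
theorem exists_block_ge (a Y : ℕ) {L : ℕ} (hL : 0 < L) :
    ∃ b : ℕ, a ≤ b ∧ b ≤ a + Y ∧
      ((π (a + Y) : ℝ) - π a) * L ≤ ((π (b + L) : ℝ) - π b) * ((Y : ℝ) + L) := by
  obtain ⟨B, hB⟩ : ∃ B, B = Y / L + 1 := ⟨_, rfl⟩
  have hBY : Y ≤ B * L := hB ▸ (Nat.lt_div_mul_add hL).le.trans (by rw [add_one_mul])
  have hBY' : B * L ≤ Y + L := by
    rw [hB, add_one_mul]
    exact add_le_add (Nat.div_mul_le_self Y L) le_rfl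
  obtain ⟨D, hD⟩ : ∃ D : ℝ, D = (π (a + Y) : ℝ) - π a := ⟨_, rfl⟩
  rw [← hD]
  have hD0 : 0 ≤ D :=
    hD ▸ sub_nonneg.2 (Nat.cast_le.2 (Nat.monotone_primeCounting (Nat.le_add_right a Y)))
  have htel : D ≤ ∑ i ∈ range B, ((π (a + (i + 1) * L) : ℝ) - π (a + i * L)) := by
    rw [sum_range_sub fun i => (π (a + i * L) : ℝ), zero_mul, add_zero, hD]
    exact sub_le_sub_right
      (Nat.cast_le.2 (Nat.monotone_primeCounting (show a + Y ≤ a + B * L by omega))) _
  have hB0 : B ≠ 0 := hB ▸ Nat.succ_ne_zero _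
  obtain ⟨i, hi, hle⟩ := exists_le_of_sum_le (nonempty_range_iff.2 hB0)
    (f := fun _ => D / B) (g := fun i => (π (a + (i + 1) * L) : ℝ) - π (a + i * L)) (by
      rw [sum_const, card_range, nsmul_eq_mul,
        mul_div_cancel₀ _ (Nat.cast_ne_zero.2 hB0)]
      exact htel)
  rw [mem_range] at hi
  refine ⟨a + i * L, Nat.le_add_right _ _, Nat.add_le_add_left
    ((Nat.mul_le_mul_right L (show i ≤ Y / L by omega)).trans (Nat.div_mul_le_self Y L)) a, ?_⟩
  rw [div_le_iff₀ (Nat.cast_pos.2 (by omega)), add_one_mul, ← add_assoc] at hle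
  refine (mul_le_mul_of_nonneg_right hle (Nat.cast_nonneg L)).trans ?_
  rw [mul_assoc]
  refine mul_le_mul_of_nonneg_left (by exact_mod_cast hBY') ?_
  exact sub_nonneg.2 (Nat.cast_le.2 (Nat.monotone_primeCounting (Nat.le_add_right _ _)))

/-- Some block of length `L` is at most as dense as the interval. -/
theorem exists_block_le (a : ℕ) {Y L : ℕ} (hL : 0 < L) (hLY : L ≤ Y) :
    ∃ b : ℕ, a ≤ b ∧ b + L ≤ a + Y ∧
      ((π (b + L) : ℝ) - π b) * ((Y : ℝ) - L) ≤ ((π (a + Y) : ℝ) - π a) * L := by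
  obtain ⟨B, hB⟩ : ∃ B, B = Y / L := ⟨_, rfl⟩
  have hB1 : 1 ≤ B := hB ▸ Nat.div_pos hLY hL
  have hBY : B * L ≤ Y := hB ▸ Nat.div_mul_le_self Y L
  have hBY' : Y ≤ B * L + L := hB ▸ (Nat.lt_div_mul_add hL).le
  obtain ⟨D, hD⟩ : ∃ D : ℝ, D = (π (a + Y) : ℝ) - π a := ⟨_, rfl⟩
  rw [← hD]
  have htel : ∑ i ∈ range B, ((π (a + (i + 1) * L) : ℝ) - π (a + i * L)) ≤ D := by
    rw [sum_range_sub fun i => (π (a + i * L) : ℝ), zero_mul, add_zero, hD]
    exact sub_le_sub_right (Nat.cast_le.2 (Nat.monotone_primeCounting (by omega))) _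
  obtain ⟨i, hi, hle⟩ := exists_le_of_sum_le (nonempty_range_iff.2 (by omega : B ≠ 0))
    (g := fun _ => D / B) (f := fun i => (π (a + (i + 1) * L) : ℝ) - π (a + i * L)) (by
      rw [sum_const, card_range, nsmul_eq_mul,
        mul_div_cancel₀ _ (Nat.cast_ne_zero.2 (by omega : B ≠ 0))]
      exact htel)
  rw [mem_range] at hi
  refine ⟨a + i * L, Nat.le_add_right _ _, ?_, ?_⟩
  · have := Nat.mul_le_mul_right L (show i + 1 ≤ B by omega)
    rw [add_one_mul] at this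
    omega
  rw [le_div_iff₀ (Nat.cast_pos.2 (by omega)), add_one_mul, ← add_assoc] at hle
  refine le_trans ?_ (mul_le_mul_of_nonneg_right hle (Nat.cast_nonneg L))
  rw [mul_assoc]
  refine mul_le_mul_of_nonneg_left ?_ ?_
  · have : (Y : ℝ) ≤ B * L + L := by exact_mod_cast hBY'
    linarith
  · exact sub_nonneg.2 (Nat.cast_le.2 (Nat.monotone_primeCounting (Nat.le_add_right _ _)))

end FA.Maier
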