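import Fermat.Agent.SieveConstant.Buchstab

/-!
# Buchstab's function crosses `exp (-γ)` in every interval of unit length

The pairing of `Q - 2`, `Q = F + f`, with the adjoint function tends to `0` and changes by at most
a multiple of `g T`, so `Q - 2` of constant sign on `[v - 1, v]` vanishes there, hence, by the
equation, on all of `[1, v]`, and `Q` is not constant on `[1, 2]`.
-/

set_option autoImplicit false

noncomputable section

namespace FA.Maier

open Filter MeasureTheory intervalIntegral Set FA.LinearSieve FA.SieveConstant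
open scoped Topology

/-- The pairing of `Q - 2` with the adjoint function. -/
def oscPairing (T s : ℝ) : ℝ :=
  adjPairing T s - 2 * (s * adjFn T s + ((∫ t in (0 : ℝ)..s, adjFn T (t + 1)) -
    ∫ t in (0 : ℝ)..(s - 1), adjFn T (t + 1)))

theorem hasDerivAt_oscPairing {T : ℝ} (hT : 0 ≤ T) {s : ℝ} (hs : 2 ≤ s) :
    HasDerivAt (oscPairing T) ((totalFn s - 2) * adjTail T s) s := by
  have hK : Continuous fun t => adjFn T (t + 1) :=
    (continuous_adjFn hT).comp (by fun_prop : Continuous fun t : ℝ => t + 1)
  have d1 := (hasDerivAt_id s).mul (hasDerivAt_adjFn hT s)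
  have d2 := (hK.integral_hasStrictDerivAt 0 s).hasDerivAt
  have d3 := (hK.integral_hasStrictDerivAt 0 (s - 1)).hasDerivAt.comp s
    ((hasDerivAt_id s).sub_const 1)
  refine (((hasDerivAt_adjPairing hT hs).sub ((d1.add (d2.sub d3)).const_mul 2)).congr_deriv
    ?_).congr_of_eventuallyEq (Eventually.of_forall fun x => rfl)
  rw [← adjoint_eq T s]
  simp only [id, sub_add_cancel]
  ring

theorem tendsto_oscPairing {T : ℝ} (hT : 0 < T) : Tendsto (oscPairing T) atTop (𝓝 0) := by
  have h1 : Tendsto (fun s => s * adjFn T s) atTop (𝓝 1) := by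
    have hz : Tendsto (fun s : ℝ => Real.exp (-s * T) + 1 / s) atTop (𝓝 0) := by
      have h1 := Real.tendsto_exp_neg_atTop_nhds_zero.comp (tendsto_id.atTop_mul_const hT)
      have h2 := tendsto_inv_atTop_zero.congr fun s : ℝ => (one_div s).symm
      simpa [Function.comp_def, neg_mul] using h1.add h2
    refine tendsto_of_tendsto_of_tendsto_of_le_of_le'
      (by simpa using hz.const_sub 1) tendsto_const_nhds ?_ ?_ <;>
      filter_upwards [eventually_gt_atTop (0 : ℝ)] with s hs
    · have h := (adjFn_bounds hT.le hs).1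
      rw [neg_mul, one_div] at h
      linarith
    · exact (adjFn_bounds hT.le hs).2.1
  have h2 : Tendsto (fun s => (∫ t in (0 : ℝ)..s, adjFn T (t + 1)) -
      ∫ t in (0 : ℝ)..(s - 1), adjFn T (t + 1)) atTop (𝓝 0) := by
    have hK : Continuous fun t => adjFn T (t + 1) :=
      (continuous_adjFn hT.le).comp (by fun_prop : Continuous fun t : ℝ => t + 1)
    refine squeeze_zero_norm' ?_ (tendsto_const_nhds.div_atTop tendsto_id : Tendsto
      (fun s : ℝ => (1 : ℝ) / s) atTop (𝓝 0))
    filter_upwards [eventually_ge_atTop (2 : ℝ)] with s hs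
    rw [integral_interval_sub_left (hK.intervalIntegrable _ _) (hK.intervalIntegrable _ _)]
    refine (norm_integral_le_of_norm_le_const (C := 1 / s) fun t ht => ?_).trans (by simp)
    rw [uIoc_of_le (by linarith)] at ht
    have hb := adjFn_bounds hT.le (show 0 < t + 1 by linarith [ht.1])
    rw [Real.norm_eq_abs, abs_of_nonneg hb.2.2, le_div_iff₀ (by linarith), mul_comm]
    exact (mul_le_mul_of_nonneg_right (show s ≤ t + 1 by linarith [ht.1]) hb.2.2).trans hb.2.1
  have h := (tendsto_adjPairing hT).sub ((h1.add h2).const_mul 2)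
  rw [add_zero, mul_one, sub_self] at h
  exact h

theorem abs_oscPairing_le {T v : ℝ} (hT : 0 < T) (hv : 2 ≤ v) :
    |oscPairing T v| ≤ 202 * adjWeight T := by
  have key : ∀ S, v ≤ S → |oscPairing T S - oscPairing T v| ≤ 202 * adjWeight T := fun S hS => by
    have hc : Continuous fun s => (totalFn s - 2) * adjTail T s := by
      have := continuous_totalFn
      unfold adjTail
      fun_prop
    have hab : Continuous fun s => 202 * adjWeight T * (T * Real.exp (-s * T)) := by fun_prop
    rw [← integral_eq_sub_of_hasDerivAt (f := oscPairing T) (fun s hs =>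
      hasDerivAt_oscPairing hT.le (by rw [uIcc_of_le hS] at hs; exact hv.trans hs.1))
      (hc.intervalIntegrable _ _)]
    refine (abs_integral_le_integral_abs hS).trans
      ((integral_mono_on hS (hc.abs.intervalIntegrable _ _)
      (hab.intervalIntegrable _ _) fun s _ => ?_).trans ?_)
    · have h0 : 0 ≤ T * adjWeight T * Real.exp (-s * T) :=
        mul_nonneg (mul_nonneg hT.le (adjWeight_pos T).le) (Real.exp_pos _).le
      have h := abs_le.1 (abs_totalFn_le s)
      rw [abs_mul, adjTail, abs_of_nonneg h0]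
      refine (mul_le_mul_of_nonneg_right (show |totalFn s - 2| ≤ 202 from abs_le.2
        ⟨by linarith, by linarith⟩) h0).trans (le_of_eq (by ring))
    · rw [intervalIntegral.integral_const_mul]
      refine mul_le_of_le_one_right (mul_nonneg (by norm_num) (adjWeight_pos T).le) ?_
      rw [integral_eq_sub_of_hasDerivAt (f := fun u => -Real.exp (-u * T)) (fun u _ => ?_)
        ((by fun_prop : Continuous fun u => T * Real.exp (-u * T)).intervalIntegrable _ _)]
      · have h2 : Real.exp (-v * T) ≤ 1 := Real.exp_le_one_iff.2 (by nlinarith)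
        linarith [Real.exp_pos (-S * T)]
      · refine ((((hasDerivAt_id u).neg.mul_const T).exp).neg).congr_deriv ?_
        simp only [id, Pi.neg_apply]
        ring
  have h := le_of_tendsto ((tendsto_oscPairing hT).sub_const (oscPairing T v)).abs
    ((eventually_ge_atTop v).mono key)
  rwa [zero_sub, abs_neg] at h

theorem oscPairing_eq {T v : ℝ} (hT : 0 ≤ T) (hv : 2 ≤ v) :
    oscPairing T v = v * (totalFn v - 2) * adjFn T v +
      ∫ t in (v - 1)..v, (totalFn t - 2) * adjFn T (t + 1) := by
  have hK : Continuous fun t => adjFn T (t + 1) :=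
    (continuous_adjFn hT).comp (by fun_prop : Continuous fun t : ℝ => t + 1)
  have hQ : Continuous fun t => totalFn t * adjFn T (t + 1) := continuous_totalFn.mul hK
  rw [oscPairing, adjPairing, ← mul_totalFn_eq hv,
    integral_interval_sub_left (hQ.intervalIntegrable _ _) (hQ.intervalIntegrable _ _),
    integral_interval_sub_left (hK.intervalIntegrable _ _) (hK.intervalIntegrable _ _)]
  simp only [sub_mul]
  rw [intervalIntegral.integral_sub (hQ.intervalIntegrable _ _)
    ((hK.const_mul 2).intervalIntegrable _ _), intervalIntegral.integral_const_mul]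
  ring

/-- If `Q - 2` keeps a sign on `[v - 1, v]`, it vanishes there. -/
theorem totalFn_eq_two_of_sign {v c : ℝ} (hv : 2 ≤ v) (hc : |c| = 1)
    (h : ∀ t ∈ Icc (v - 1) v, 0 ≤ c * (totalFn t - 2)) :
    ∀ t ∈ Icc (v - 1) v, totalFn t = 2 := by
  obtain ⟨W, hW⟩ : ∃ W, W = fun t => c * (totalFn t - 2) := ⟨_, rfl⟩
  have hWc : Continuous W := hW ▸ continuous_const.mul (continuous_totalFn.sub continuous_const)
  have hbound : ∀ T : ℝ, 1 ≤ T →
      ∫ t in (v - 1)..v, W t ≤ 4 * (v + 1) * (202 * adjWeight T) := fun T hT => by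
    have hK : Continuous fun t => adjFn T (t + 1) :=
      (continuous_adjFn (by linarith)).comp (by fun_prop : Continuous fun t : ℝ => t + 1)
    have h1 : c * oscPairing T v ≤ 202 * adjWeight T :=
      (le_abs_self _).trans (by rw [abs_mul, hc, one_mul]; exact abs_oscPairing_le (by linarith) hv)
    have h2 : 0 ≤ c * (v * (totalFn v - 2) * adjFn T v) := by
      have := mul_nonneg (mul_nonneg (show (0 : ℝ) ≤ v by linarith)
        (h v ⟨by linarith, le_rfl⟩)) (adjFn_bounds (show 0 ≤ T by linarith)
          (show 0 < v by linarith)).2.2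
      linarith
    rw [oscPairing_eq (by linarith) hv, mul_add, ← intervalIntegral.integral_const_mul] at h1
    have h3 : ∫ t in (v - 1)..v, W t * (1 / (4 * (v + 1))) ≤
        ∫ t in (v - 1)..v, c * ((totalFn t - 2) * adjFn T (t + 1)) := by
      refine integral_mono_on (by linarith) ((hWc.mul continuous_const).intervalIntegrable _ _)
        ((continuous_const.mul ((continuous_totalFn.sub continuous_const).mul
          hK)).intervalIntegrable _ _) fun t ht => ?_
      rw [← mul_assoc, hW]
      refine mul_le_mul_of_nonneg_left ?_ (h t ht)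
      have ht2 : 2 ≤ t + 1 := by linarith [ht.1]
      have hb := adjFn_bounds (show 0 ≤ T by linarith) (show 0 < t + 1 by linarith)
      have he : Real.exp (-(t + 1) * T) ≤ 1 / 4 := by
        refine (Real.exp_le_exp.2 (show -(t + 1) * T ≤ -2 by nlinarith)).trans ?_
        rw [Real.exp_neg, show (2 : ℝ) = 1 + 1 by norm_num, Real.exp_add, one_div]
        refine inv_anti₀ (by norm_num) ?_
        nlinarith [Real.exp_one_gt_d9]
      have hi : 1 / (t + 1) ≤ 1 / 2 := one_div_le_one_div_of_le two_pos ht2
      rw [div_le_iff₀ (by linarith)]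
      have := mul_le_mul_of_nonneg_right (show t + 1 ≤ v + 1 by linarith [ht.2]) hb.2.2
      linarith [hb.1]
    rw [intervalIntegral.integral_mul_const, mul_one_div, div_le_iff₀ (by linarith)] at h3
    calc ∫ t in (v - 1)..v, W t ≤ _ := h3
      _ ≤ 202 * adjWeight T * (4 * (v + 1)) :=
          mul_le_mul_of_nonneg_right (by linarith) (by linarith)
      _ = _ := mul_comm _ _
  have hlim : Tendsto (fun n : ℕ => 4 * (v + 1) * (202 * adjWeight n)) atTop (𝓝 0) := by
    have hw : Tendsto (fun n : ℕ => adjWeight n) atTop (𝓝 0) := by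
      refine (tendsto_mul_adjWeight.div_atTop tendsto_natCast_atTop_atTop).congr' ?_
      filter_upwards [eventually_gt_atTop 0] with n hn
      rw [mul_div_cancel_left₀ _ (Nat.cast_ne_zero.2 hn.ne')]
    simpa using (hw.const_mul 202).const_mul (4 * (v + 1))
  have hI : ∫ t in (v - 1)..v, W t ≤ 0 := ge_of_tendsto hlim
    ((eventually_ge_atTop 1).mono fun n hn => hbound n (by exact_mod_cast hn))
  intro t ht
  by_contra hne
  have hpos : 0 < W t := by
    have hc0 : c ≠ 0 := fun e => by rw [e, abs_zero] at hc; exact zero_ne_one hc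
    exact hW ▸ (h t ht).lt_of_ne (mul_ne_zero hc0 (sub_ne_zero.2 hne)).symm
  exact hI.not_gt (intervalIntegral.integral_pos (by linarith) hWc.continuousOn
    (fun s hs => hW ▸ h s (Ioc_subset_Icc_self hs)) ⟨t, ht, hpos⟩)

/-- The equation carries `Q = 2` one unit to the left. -/
theorem totalFn_eq_two_left {a v : ℝ} (ha : 1 < a) (hav : a + 1 ≤ v)
    (h : ∀ t ∈ Icc a v, totalFn t = 2) : ∀ t ∈ Icc (max 1 (a - 1)) v, totalFn t = 2 := by
  have hopen : ∀ r ∈ Ioo (max 1 (a - 1)) a, totalFn r = 2 := fun r hr => by
    have hr1 := (le_max_left 1 (a - 1)).trans_lt hr.1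
    have hr2 := (le_max_right 1 (a - 1)).trans_lt hr.1
    have hc : Continuous fun t => totalFn (t - 1) := continuous_totalFn.comp (by fun_prop)
    have d1 : HasDerivAt (fun s => linearConst + ∫ t in (2 : ℝ)..s, totalFn (t - 1)) (totalFn r)
        (r + 1) := by
      have d := (hc.integral_hasStrictDerivAt 2 (r + 1)).hasDerivAt.const_add linearConst
      rwa [add_sub_cancel_right] at d
    have d2 : HasDerivAt (fun s => linearConst + ∫ t in (2 : ℝ)..s, totalFn (t - 1)) 2
        (r + 1) := by
      refine (((hasDerivAt_id (r + 1)).mul_const (2 : ℝ)).congr_deriv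
        (one_mul _)).congr_of_eventuallyEq ?_
      filter_upwards [Ioo_mem_nhds (show max 2 a < r + 1 from max_lt (by linarith) (by linarith))
        (show r + 1 < a + 1 by linarith [hr.2])] with s hs
      rw [← mul_totalFn_eq ((le_max_left 2 a).trans hs.1.le),
        h s ⟨(le_max_right 2 a).trans hs.1.le, hs.2.le.trans hav⟩]
      rfl
    exact d1.unique d2
  have hcl : closure (Ioo (max 1 (a - 1)) a) ⊆ {t | totalFn t = 2} :=
    closure_minimal hopen (isClosed_eq continuous_totalFn continuous_const)
  rw [closure_Ioo (max_lt ha (by linarith)).ne] at hcl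
  intro t ht
  rcases le_or_gt a t with h' | h'
  · exact h t ⟨h', ht.2⟩
  · exact hcl ⟨ht.1, h'.le⟩

theorem exists_sign_totalFn {v c : ℝ} (hv : 2 ≤ v) (hc : |c| = 1) :
    ∃ t ∈ Icc (v - 1) v, c * (totalFn t - 2) < 0 := by
  by_contra! hcon
  have h0 := totalFn_eq_two_of_sign hv hc hcon
  have key : ∀ n : ℕ, ∀ t ∈ Icc (max 1 (v - 1 - n)) v, totalFn t = 2 := by
    intro n
    induction n with
    | zero => simpa [max_eq_right (show (1 : ℝ) ≤ v - 1 by linarith)] using h0
    | succ n ih =>
      intro t ht
      rcases le_or_gt (v - 1 - (n : ℝ)) 1 with h | h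
      · exact ih t ⟨by rw [max_eq_left h]; exact (le_max_left _ _).trans ht.1, ht.2⟩
      · rw [max_eq_right h.le] at ih
        refine totalFn_eq_two_left h ?_ ih t ⟨le_trans (le_of_eq ?_) ht.1, ht.2⟩
        · linarith [Nat.cast_nonneg (α := ℝ) n]
        · rw [Nat.cast_succ, sub_sub _ (n : ℝ) 1]
  obtain ⟨n, hn⟩ : ∃ n : ℕ, v - 1 - n ≤ 1 := ⟨⌈v⌉₊, by linarith [Nat.le_ceil v]⟩
  have h1 := key n 1 ⟨max_le le_rfl hn, by linarith⟩
  have h2 := key n 2 ⟨max_le one_le_two (by linarith), hv⟩
  have h3 := totalFn_on_one_two le_rfl one_le_two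
  have h4 := totalFn_on_one_two one_le_two le_rfl
  rw [h1] at h3
  rw [h2] at h4
  linarith

theorem exp_neg_gamma_eq : Real.exp (-Real.eulerMascheroniConstant) = 2 / linearConst := by
  rw [linearConst_eq, Real.exp_neg, div_mul_cancel_left₀ two_ne_zero]

/-- Buchstab's function exceeds `exp (-γ)` somewhere in each interval of unit length. -/
theorem exists_buchstab_gt {v : ℝ} (hv : 2 ≤ v) :
    ∃ t ∈ Icc (v - 1) v, Real.exp (-Real.eulerMascheroniConstant) < buchstab t := by
  obtain ⟨t, ht, h⟩ := exists_sign_totalFn hv (c := -1) (by norm_num)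
  refine ⟨t, ht, ?_⟩
  rw [exp_neg_gamma_eq, buchstab]
  exact div_lt_div_of_pos_right (by linarith) linearConst_pos

/-- Buchstab's function falls below `exp (-γ)` somewhere in each interval of unit length. -/
theorem exists_buchstab_lt {v : ℝ} (hv : 2 ≤ v) :
    ∃ t ∈ Icc (v - 1) v, buchstab t < Real.exp (-Real.eulerMascheroniConstant) := by
  obtain ⟨t, ht, h⟩ := exists_sign_totalFn hv (c := 1) (by norm_num)
  refine ⟨t, ht, ?_⟩
  rw [exp_neg_gamma_eq, buchstab]
  exact div_lt_div_of_pos_right (by linarith) linearConst_pos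

end FA.Maier
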