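import Fermat.Agent.Maier.Count
import Fermat.Agent.Maier.Matrix
import Fermat.Agent.Maier.Oscillation

/-!
# Maier's theorem

With `x = z# ^ D`, `y = z ^ u` some interval of length `y` in `(x, 2 x]` has about
`exp γ · ω u · y / log x` primes at most, and some other at least. Cut into blocks of length
`(log x) ^ A`, `A < u`, they give `(log x) ^ A` both an excess and a deficit.
-/

set_option autoImplicit false

noncomputable section

namespace FA.Maier

open Finset Filter FA.SieveConstant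
open scoped Topology Classical Nat.Prime ArithmeticFunction.vonMangoldt

/-- The density which the sifting forces. -/
def forcedDensity (u : ℝ) : ℝ := buchstab u / Real.exp (-Real.eulerMascheroniConstant)

theorem forcedDensity_pos {u : ℝ} (hu : 1 ≤ u) : 0 < forcedDensity u :=
  div_pos (pos_of_mul_pos_right (one_pos.trans_le (one_le_mul_buchstab hu)) (by linarith))
    (Real.exp_pos _)

theorem log_primorial_le (z : ℕ) : Real.log (primorial z) ≤ 2 * z := by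
  refine (Real.log_le_log (Nat.cast_pos.2 (primorial_pos z))
    (Nat.cast_le.2 (primorial_le_four_pow z))).trans ?_
  rw [Nat.cast_pow, Real.log_pow, mul_comm 2]
  refine mul_le_mul_of_nonneg_left ?_ (Nat.cast_nonneg z)
  rw [show ((4 : ℕ) : ℝ) = 2 * 2 by norm_num, Real.log_mul two_ne_zero two_ne_zero]
  linarith [Real.log_two_lt_d9]

theorem eventually_mul_log_le_log_primorial (c : ℝ) :
    ∀ᶠ z : ℕ in atTop, c * Real.log z ≤ Real.log (primorial z) := by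
  have h : Tendsto (fun z : ℕ => (|c| + 4) * (Real.log z / (z : ℝ) ^ (1 / 2 : ℝ))) atTop (𝓝 0) := by
    simpa using
      ((isLittleO_log_rpow_atTop (show (0 : ℝ) < 1 / 2 by norm_num)).tendsto_div_nhds_zero.comp
        tendsto_natCast_atTop_atTop).const_mul (|c| + 4)
  filter_upwards [h.eventually (eventually_le_nhds (Real.log_pos one_lt_two)),
    eventually_ge_atTop 2] with z hz hz2
  have h1 := Chebyshev.theta_ge z
  rw [Chebyshev.theta_eq_log_primorial, Nat.floor_natCast] at h1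
  have hz2' : (2 : ℝ) ≤ z := by exact_mod_cast hz2
  have hl : 0 ≤ Real.log z := Real.log_nonneg (by linarith)
  have h2 : Real.log ((z : ℝ) + 1) ≤ 2 * Real.log z := by
    rw [← Nat.cast_ofNat, ← Real.log_pow]
    exact Real.log_le_log (by linarith) (by nlinarith)
  rw [← Real.sqrt_eq_rpow] at hz
  obtain ⟨s, hs⟩ : ∃ s, s = Real.sqrt z := ⟨_, rfl⟩
  rw [← hs] at h1 hz
  have hs0 : 0 < s := hs ▸ Real.sqrt_pos.2 (by linarith)
  have hs1 : 1 ≤ s := hs ▸ Real.one_le_sqrt.2 (by linarith)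
  have hss : s * s = z := hs ▸ Real.mul_self_sqrt (by linarith)
  rw [mul_div_assoc', div_le_iff₀ hs0] at hz
  have h3 := mul_le_mul_of_nonneg_right hz hs0.le
  rw [mul_assoc (Real.log 2), hss] at h3
  have h4 := le_mul_of_one_le_right (mul_nonneg (abs_nonneg c) hl) hs1
  have h5 := le_mul_of_one_le_right hl hs1
  have h6 := mul_le_mul_of_nonneg_right (le_abs_self c) hl
  linarith

/-- **Long intervals with the forced density.** -/
theorem exists_long_intervals {u : ℝ} (hu : 2 < u) {η : ℝ} (hη : 0 < η) :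
    ∃ D : ℕ, 4 ≤ D ∧ ∀ᶠ z : ℕ in atTop, ∃ a b : ℕ,
      (primorial z ^ D ≤ a ∧ a + ⌊(z : ℝ) ^ u⌋₊ ≤ 2 * primorial z ^ D ∧
        (forcedDensity u - η) * (z : ℝ) ^ u ≤ ((π (a + ⌊(z : ℝ) ^ u⌋₊) : ℝ) - π a) *
          Real.log (4 * ((primorial z ^ D : ℕ) : ℝ))) ∧
      (primorial z ^ D ≤ b ∧ b + ⌊(z : ℝ) ^ u⌋₊ ≤ 2 * primorial z ^ D ∧
        ((π (b + ⌊(z : ℝ) ^ u⌋₊) : ℝ) - π b) * Real.log ((primorial z ^ D : ℕ) : ℝ) ≤
          (forcedDensity u + η) * (z : ℝ) ^ u) := by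
  obtain ⟨κ, hκ⟩ : ∃ κ, κ = forcedDensity u := ⟨_, rfl⟩
  rw [← hκ]
  have hκ0 : 0 < κ := hκ ▸ forcedDensity_pos (by linarith)
  obtain ⟨ε, hε, hε1, hεη⟩ : ∃ ε, 0 < ε ∧ ε ≤ 1 ∧ ε * (κ + η) ≤ η / 4 :=
    ⟨min 1 (η / 4 / (κ + η)), by positivity, min_le_left _ _, le_trans
      (mul_le_mul_of_nonneg_right (min_le_right _ _) (by linarith))
      (div_mul_cancel₀ _ (by linarith)).le⟩
  obtain ⟨K, hK⟩ := eventually_density (show 1 < u by linarith) (show 0 < η / 4 by positivity)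
  obtain ⟨D₀, hD₀⟩ := exists_sift_modulus hε
  obtain ⟨D, hD⟩ : ∃ D, D = D₀ + 4 := ⟨_, rfl⟩
  refine ⟨D, by omega, ?_⟩
  have hpow : ∀ᶠ z : ℕ in atTop, max (8 * (2 * (D : ℝ) + 2) ^ 2 / η) (4 / η) ≤ (z : ℝ) ^ (u - 2) :=
    ((tendsto_rpow_atTop (by linarith)).comp tendsto_natCast_atTop_atTop).eventually_ge_atTop _
  filter_upwards [hK, hD₀ D (by omega) K, hpow, eventually_mul_log_le_log_primorial (u + 1),
    eventually_ge_atTop (D + 2)] with z hdens hmod hz hlogP hzD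
  obtain ⟨q, hq, hclass⟩ := hmod
  have hd := hdens q hq
  rw [show buchstab u / Real.exp (-Real.eulerMascheroniConstant) = κ from hκ.symm, abs_le] at hd
  obtain ⟨P, hP⟩ : ∃ P, P = primorial z := ⟨_, rfl⟩
  obtain ⟨X, hX⟩ : ∃ X, X = P ^ D := ⟨_, rfl⟩
  obtain ⟨y, hy⟩ : ∃ y, y = (z : ℝ) ^ u := ⟨_, rfl⟩
  rw [← hP] at hlogP
  rw [← hP, ← hX] at hclass ⊢
  rw [← hy] at hd ⊢
  have hz2 : (2 : ℝ) ≤ z := by exact_mod_cast (show 2 ≤ z by omega)
  have hy0 : 0 < y := hy ▸ Real.rpow_pos_of_pos (by linarith) u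
  have hzP : z ≤ P := hP ▸ le_primorial_self
  have hP0 : (0 : ℝ) < P := Nat.cast_pos.2 (by omega)
  have hqP : q ∣ P := hP ▸ hq.dvd
  have hq0 : 0 < q := Nat.pos_of_dvd_of_pos hqP (by omega)
  have hqle : q ≤ P := Nat.le_of_dvd (by omega) hqP
  have hPqz : (P : ℝ) ≤ q * z := by
    rcases hq with hq | ⟨p, -, -, hpz, hqp⟩
    · rw [hq, ← hP]
      exact le_mul_of_one_le_right hP0.le (by linarith)
    · rw [← hP] at hqp
      exact_mod_cast hqp ▸ Nat.mul_le_mul_left q hpz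
  have hyq : y ≤ q := by
    refine le_of_mul_le_mul_right ?_ (show (0 : ℝ) < z by linarith)
    refine le_trans ?_ hPqz
    rw [hy, ← Real.rpow_add_one (by linarith), ← Real.log_le_log_iff
      (Real.rpow_pos_of_pos (by linarith) _) hP0, Real.log_rpow (by linarith)]
    exact hlogP
  obtain ⟨Y, hY⟩ : ∃ Y, Y = ⌊y⌋₊ := ⟨_, rfl⟩
  rw [← hY]
  have hYq : Y ≤ q := by
    have : (Y : ℝ) ≤ q := (hY ▸ Nat.floor_le hy0.le).trans hyq
    exact_mod_cast this
  have hX4 : P ^ 4 ≤ X := hX ▸ Nat.pow_le_pow_right (by omega) (by omega)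
  have hX1 : 1 ≤ X := le_trans (Nat.one_le_pow _ _ (by omega)) hX4
  have hlX : Real.log (X : ℝ) = D * Real.log P := by rw [hX, Nat.cast_pow, Real.log_pow]
  have hlP : Real.log P ≤ 2 * z := hP ▸ log_primorial_le z
  have hl4 : Real.log (4 * (X : ℝ)) ≤ (2 * D + 2) * z := by
    rw [Real.log_mul (by norm_num) (Nat.cast_ne_zero.2 (by omega)), hlX,
      show (4 : ℝ) = 2 * 2 by norm_num, Real.log_mul two_ne_zero two_ne_zero]
    have := mul_le_mul_of_nonneg_left hlP (Nat.cast_nonneg (α := ℝ) D)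
    linarith [Real.log_two_lt_d9]
  have hrem : (q : ℝ) * (q * Real.log ((X : ℝ) + X)) ≤ X := by
    have h1 : Real.log ((X : ℝ) + X) ≤ ((D : ℝ) + 1) * P := by
      rw [← two_mul, Real.log_mul two_ne_zero (Nat.cast_ne_zero.2 (by omega)), hlX]
      have := mul_le_mul_of_nonneg_left (Real.log_le_sub_one_of_pos hP0)
        (Nat.cast_nonneg (α := ℝ) D)
      have : (1 : ℝ) ≤ P := Nat.one_le_cast.2 (by omega)
      have : (0 : ℝ) ≤ D := Nat.cast_nonneg D
      linarith [Real.log_two_lt_d9]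
    have h2 : (D : ℝ) + 1 ≤ P := by exact_mod_cast (show D + 1 ≤ P by omega)
    have hl0 : 0 ≤ Real.log ((X : ℝ) + X) :=
      Real.log_nonneg (by linarith [(Nat.one_le_cast.2 hX1 : (1 : ℝ) ≤ X)])
    have hqR : (q : ℝ) ≤ P := Nat.cast_le.2 hqle
    calc (q : ℝ) * (q * Real.log ((X : ℝ) + X)) ≤ P * (P * ((P : ℝ) * P)) :=
          mul_le_mul hqR (mul_le_mul hqR (h1.trans (mul_le_mul_of_nonneg_right h2 hP0.le)) hl0
            hP0.le) (mul_nonneg (Nat.cast_nonneg q) hl0) hP0.le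
      _ = ((P ^ 4 : ℕ) : ℝ) := by push_cast; ring
      _ ≤ X := Nat.cast_le.2 hX4
  obtain ⟨⟨a, ha1, ha2, haS⟩, b, hb1, hb2, hbS⟩ :=
    exists_rows hq0 hX1 (hqP.trans (hX ▸ dvd_pow_self P (by omega))) hYq hclass hrem
  obtain ⟨V, hV⟩ : ∃ V : ℝ, V = (coprimeCount q y : ℝ) * ((q : ℝ) / q.totient) := ⟨_, rfl⟩
  rw [coprimeCount, ← hY] at hV
  rw [coprimeCount, ← hY, ← hV, le_sub_iff_add_le, le_div_iff₀ hy0, sub_le_iff_le_add,
    div_le_iff₀ hy0] at hd
  rw [← hV] at haS hbS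
  have hεV : ε * V ≤ η / 4 * y := by
    refine (mul_le_mul_of_nonneg_left hd.2 hε.le).trans ?_
    have := mul_le_mul_of_nonneg_right hεη hy0.le
    have := mul_nonneg (mul_nonneg hε.le hη.le) hy0.le
    linarith
  have hzy : max (8 * (2 * (D : ℝ) + 2) ^ 2 / η) (4 / η) * (z : ℝ) ^ 2 ≤ y := by
    refine (mul_le_mul_of_nonneg_right hz (sq_nonneg _)).trans (le_of_eq ?_)
    rw [hy, ← Real.rpow_natCast, ← Real.rpow_add (by linarith)]
    norm_num
  have hYX : ∀ c : ℕ, X ≤ c → Y * Y ≤ c := fun c hc => by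
    refine le_trans ?_ (hX4.trans hc)
    refine (Nat.mul_le_mul (hYq.trans hqle) (hYq.trans hqle)).trans ?_
    rw [← sq]
    exact Nat.pow_le_pow_right (by omega) (by norm_num)
  refine ⟨a, b, ⟨ha1, ha2, ?_⟩, hb1, hb2, ?_⟩
  · have h := (primes_of_sum (hYX a ha1) (hX1.trans ha1)).2
    have hle : Real.log ((a + Y : ℕ) : ℝ) ≤ Real.log (4 * (X : ℝ)) := by
      refine Real.log_le_log (Nat.cast_pos.2 (by omega)) ?_
      have h1 : ((a + Y : ℕ) : ℝ) ≤ ((2 * X : ℕ) : ℝ) := Nat.cast_le.2 ha2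
      push_cast at h1 ⊢
      linarith [Nat.cast_nonneg (α := ℝ) X]
    have h0 : 0 ≤ Real.log ((a + Y : ℕ) : ℝ) := Real.log_natCast_nonneg _
    have hd0 : (0 : ℝ) ≤ (π (a + Y) : ℝ) - π a :=
      sub_nonneg.2 (Nat.cast_le.2 (Nat.monotone_primeCounting (Nat.le_add_right a Y)))
    have h1 := mul_le_mul_of_nonneg_left hle hd0
    have h2 : 2 * Real.log ((a + Y : ℕ) : ℝ) ^ 2 ≤ η / 4 * y := by
      refine (mul_le_mul_of_nonneg_left (pow_le_pow_left₀ h0 (hle.trans hl4) 2) zero_le_two).trans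
        ?_
      have h3 := (mul_le_mul_of_nonneg_right (le_max_left _ _) (sq_nonneg (z : ℝ))).trans hzy
      rw [div_mul_eq_mul_div, div_le_iff₀ hη] at h3
      linarith
    linarith [hd.1]
  · have h := (primes_of_sum (hYX b hb1) (hX1.trans hb1)).1
    have hle : Real.log (X : ℝ) ≤ Real.log (b : ℝ) :=
      Real.log_le_log (Nat.cast_pos.2 hX1) (Nat.cast_le.2 hb1)
    have hd0 : (0 : ℝ) ≤ (π (b + Y) : ℝ) - π b :=
      sub_nonneg.2 (Nat.cast_le.2 (Nat.monotone_primeCounting (Nat.le_add_right b Y)))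
    have h1 := mul_le_mul_of_nonneg_left hle hd0
    have h2 : 1 ≤ η / 4 * y := by
      have h3 := (mul_le_mul_of_nonneg_right (le_max_right _ _) (sq_nonneg (z : ℝ))).trans hzy
      rw [div_mul_eq_mul_div, div_le_iff₀ hη] at h3
      nlinarith
    linarith [hd.2]

/-- What the blocks need of `ℓ = log x` and `y`. -/
theorem block_limits {u A : ℝ} (hA : 0 < A) (hAu : A < u) (D : ℕ) (hD : 0 < D) :
    Tendsto (fun z : ℕ => Real.log ((primorial z ^ D : ℕ) : ℝ)) atTop atTop ∧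
      Tendsto (fun z : ℕ => Real.log (4 * ((primorial z ^ D : ℕ) : ℝ)) ^ A / (z : ℝ) ^ u) atTop
        (𝓝 0) ∧
      Tendsto (fun z : ℕ => Real.log ((primorial z ^ D : ℕ) : ℝ) ^ A /
        Real.log (4 * ((primorial z ^ D : ℕ) : ℝ)) ^ A) atTop (𝓝 1) := by
  have hl : Tendsto (fun z : ℕ => Real.log ((primorial z ^ D : ℕ) : ℝ)) atTop atTop := by
    refine (tendsto_log_primorial.const_mul_atTop (Nat.cast_pos.2 hD : (0 : ℝ) < D)).congr
      fun z => ?_
    rw [Nat.cast_pow, Real.log_pow]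
  have e : ∀ z : ℕ, Real.log (4 * ((primorial z ^ D : ℕ) : ℝ)) =
      Real.log ((primorial z ^ D : ℕ) : ℝ) + Real.log 4 := fun z => by
    rw [Real.log_mul (by norm_num) (Nat.cast_ne_zero.2 (pow_ne_zero _ (primorial_ne_zero z))),
      add_comm]
  have hl4 : 0 < Real.log 4 := Real.log_pos (by norm_num)
  refine ⟨hl, ?_, ?_⟩
  · have h := ((tendsto_rpow_neg_atTop (sub_pos.2 hAu)).comp
      tendsto_natCast_atTop_atTop).const_mul ((2 * (D : ℝ) + 2) ^ A)
    rw [mul_zero] at h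
    refine squeeze_zero' ?_ ?_ h
    · refine Eventually.of_forall fun z => div_nonneg (Real.rpow_nonneg ?_ _)
        (Real.rpow_nonneg (Nat.cast_nonneg z) _)
      rw [e]
      linarith [Real.log_natCast_nonneg (primorial z ^ D)]
    · filter_upwards [eventually_ge_atTop 1] with z hz
      have hz' : (1 : ℝ) ≤ z := Nat.one_le_cast.2 hz
      have h0 : 0 ≤ Real.log (4 * ((primorial z ^ D : ℕ) : ℝ)) := by
        rw [e]
        linarith [Real.log_natCast_nonneg (primorial z ^ D)]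
      have h1 : Real.log (4 * ((primorial z ^ D : ℕ) : ℝ)) ≤ (2 * D + 2) * z := by
        rw [e, Nat.cast_pow, Real.log_pow, show (4 : ℝ) = 2 * 2 by norm_num,
          Real.log_mul two_ne_zero two_ne_zero]
        have := mul_le_mul_of_nonneg_left (log_primorial_le z) (Nat.cast_nonneg (α := ℝ) D)
        linarith [Real.log_two_lt_d9]
      refine (div_le_div_of_nonneg_right (Real.rpow_le_rpow h0 h1 hA.le)
        (Real.rpow_nonneg (by linarith) _)).trans (le_of_eq ?_)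
      rw [Function.comp_apply, neg_sub, Real.rpow_sub (by linarith),
        Real.mul_rpow (by positivity) (by linarith), mul_div_assoc]
  · have h1 : Tendsto (fun z : ℕ => 1 - Real.log 4 /
        (Real.log ((primorial z ^ D : ℕ) : ℝ) + Real.log 4)) atTop (𝓝 1) := by
      simpa using ((tendsto_atTop_add_const_right _ (Real.log 4) hl).const_div_atTop
        (Real.log 4)).const_sub 1
    have h2 := h1.rpow_const (p := A) (Or.inr hA.le)
    rw [Real.one_rpow] at h2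
    refine h2.congr fun z => ?_
    have h0 := Real.log_natCast_nonneg (primorial z ^ D)
    rw [← Real.div_rpow h0 (by rw [e]; linarith), e, one_sub_div (by linarith),
      add_sub_cancel_right]

/-- The density `c < exp γ · ω u` is exceeded in intervals of length `(log x) ^ A`, `A < u`. -/
theorem frequently_ge {u A : ℝ} (hu : 2 < u) (hA : 1 < A) (hAu : A < u) {c : ℝ}
    (hc : c < forcedDensity u) :
    ∃ᶠ x : ℝ in atTop,
      c * Real.log x ^ (A - 1) ≤ (π ⌊x + Real.log x ^ A⌋₊ : ℝ) - π ⌊x⌋₊ := by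
  obtain ⟨c₀, hc₀⟩ : ∃ c₀, c₀ = max c 0 := ⟨_, rfl⟩
  have hc0 : 0 ≤ c₀ := hc₀ ▸ le_max_right _ _
  have hcc : c ≤ c₀ := hc₀ ▸ le_max_left _ _
  have hcκ : c₀ < forcedDensity u := hc₀ ▸ max_lt hc (forcedDensity_pos (by linarith))
  obtain ⟨η, hη⟩ : ∃ η, η = (forcedDensity u - c₀) / 2 := ⟨_, rfl⟩
  obtain ⟨D, hD, hlong⟩ := exists_long_intervals hu (show 0 < η by rw [hη]; linarith)
  obtain ⟨hl, hr1, hr2⟩ := block_limits (show 0 < A by linarith) hAu D (by omega)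
  have hlA := (tendsto_rpow_atTop (show 0 < A by linarith)).comp hl
  have hlim : Tendsto (fun z : ℕ => (forcedDensity u - η) *
      (Real.log ((primorial z ^ D : ℕ) : ℝ) ^ A /
        Real.log (4 * ((primorial z ^ D : ℕ) : ℝ)) ^ A *
        (1 - 1 / Real.log ((primorial z ^ D : ℕ) : ℝ) ^ A)) -
      c₀ * (1 + Real.log (4 * ((primorial z ^ D : ℕ) : ℝ)) ^ A / (z : ℝ) ^ u)) atTop
      (𝓝 ((forcedDensity u - η) * (1 * (1 - 0)) - c₀ * (1 + 0))) :=
    ((hr2.mul ((hlA.const_div_atTop 1).const_sub 1)).const_mul _).sub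
      ((hr1.const_add 1).const_mul c₀)
  rw [frequently_atTop]
  intro B
  obtain ⟨z, ⟨a, -, ⟨ha1, ha2, ha⟩, -⟩, hz, hlz, hBz, hz1, hLA⟩ := (hlong.and
    ((hlim.eventually (eventually_ge_nhds (show (0 : ℝ) < (forcedDensity u - η) * (1 * (1 - 0)) -
      c₀ * (1 + 0) by rw [hη]; linarith))).and ((hl.eventually_gt_atTop 1).and
    ((hl.eventually_ge_atTop (Real.log (max B 1))).and ((eventually_ge_atTop 1).and
      (hlA.eventually_ge_atTop 2)))))).exists
  rw [Function.comp_apply] at hLA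
  obtain ⟨X, hX⟩ : ∃ X, X = primorial z ^ D := ⟨_, rfl⟩
  rw [← hX] at ha1 ha2 ha hz hlz hBz hLA
  obtain ⟨ℓ, hℓ⟩ : ∃ ℓ, ℓ = Real.log (X : ℝ) := ⟨_, rfl⟩
  obtain ⟨m, hm⟩ : ∃ m, m = Real.log (4 * (X : ℝ)) := ⟨_, rfl⟩
  obtain ⟨y, hy⟩ : ∃ y, y = (z : ℝ) ^ u := ⟨_, rfl⟩
  rw [← hℓ] at hz hlz hBz hLA
  rw [← hm] at hz ha
  rw [← hy] at hz ha ha2
  have hy0 : 0 < y := hy ▸ Real.rpow_pos_of_pos (Nat.cast_pos.2 hz1) u
  have hX0 : 0 < X := hX ▸ pow_pos (primorial_pos z) D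
  have hX0' : (0 : ℝ) < X := Nat.cast_pos.2 hX0
  have hℓm : ℓ ≤ m := by
    rw [hℓ, hm]
    exact Real.log_le_log hX0' (by linarith)
  obtain ⟨L, hL⟩ : ∃ L, L = ⌊ℓ ^ A⌋₊ := ⟨_, rfl⟩
  have hℓA : 0 ≤ ℓ ^ A := Real.rpow_nonneg (by linarith) A
  have hLle : (L : ℝ) ≤ ℓ ^ A := hL ▸ Nat.floor_le hℓA
  have hLge : ℓ ^ A - 1 ≤ L := hL ▸ (Nat.sub_one_lt_floor _).le
  have hL0 : 0 < L := Nat.cast_pos.1 (show (0 : ℝ) < L by linarith)
  obtain ⟨b, hb1, hb2, hb⟩ := exists_block_ge a ⌊y⌋₊ hL0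
  obtain ⟨d, hd⟩ : ∃ d : ℝ, d = (π (b + L) : ℝ) - π b := ⟨_, rfl⟩
  rw [← hd] at hb
  have hd0 : 0 ≤ d :=
    hd ▸ sub_nonneg.2 (Nat.cast_le.2 (Nat.monotone_primeCounting (Nat.le_add_right b L)))
  have hbX : (X : ℝ) ≤ b := Nat.cast_le.2 (ha1.trans hb1)
  have hlb1 : ℓ ≤ Real.log b := hℓ ▸ Real.log_le_log hX0' hbX
  have hlb2 : Real.log b ≤ m := by
    rw [hm]
    refine Real.log_le_log (by linarith) ?_
    have h1 : (b : ℝ) ≤ ((2 * X : ℕ) : ℝ) := Nat.cast_le.2 (hb2.trans ha2)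
    push_cast at h1
    linarith
  refine ⟨b, ?_, ?_⟩
  · rw [hℓ, Real.log_le_log_iff (lt_max_of_lt_right one_pos) hX0'] at hBz
    linarith [le_max_left B 1]
  · rw [Nat.floor_natCast]
    have hmono : π (b + L) ≤ π ⌊(b : ℝ) + Real.log b ^ A⌋₊ := by
      refine Nat.monotone_primeCounting (Nat.le_floor ?_)
      push_cast
      linarith [Real.rpow_le_rpow (by linarith) hlb1 (show 0 ≤ A by linarith)]
    refine le_trans ?_ (sub_le_sub_right (Nat.cast_le.2 hmono) _)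
    rw [← hd]
    have hmA : 0 < m ^ A := Real.rpow_pos_of_pos (by linarith) A
    have hm1 : m ^ (A - 1) * m = m ^ A := by
      rw [Real.rpow_sub_one (show m ≠ 0 by linarith), div_mul_cancel₀ _ (by linarith)]
    refine le_trans (mul_le_mul hcc (Real.rpow_le_rpow (by linarith) hlb2 (by linarith))
      (Real.rpow_nonneg (by linarith) _) hc0) ?_
    refine le_of_mul_le_mul_right ?_ (mul_pos (show 0 < m by linarith)
      (show 0 < y + ℓ ^ A by linarith))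
    have h1 : (forcedDensity u - η) * y * L ≤ d * m * (y + ℓ ^ A) := by
      refine (mul_le_mul_of_nonneg_right ha (Nat.cast_nonneg L)).trans ?_
      rw [mul_right_comm, mul_right_comm d]
      refine mul_le_mul_of_nonneg_right (hb.trans (mul_le_mul_of_nonneg_left ?_ hd0)) (by linarith)
      linarith [Nat.floor_le hy0.le]
    have h2 : c₀ * m ^ A * (y + m ^ A) ≤ (forcedDensity u - η) * y * (ℓ ^ A - 1) := by
      have h4 := mul_le_mul_of_nonneg_right hz (mul_nonneg hmA.le hy0.le)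
      have h5 : ((forcedDensity u - η) * (ℓ ^ A / m ^ A * (1 - 1 / ℓ ^ A)) -
          c₀ * (1 + m ^ A / y)) * (m ^ A * y) =
          (forcedDensity u - η) * y * (ℓ ^ A - 1) - c₀ * m ^ A * (y + m ^ A) := by
        have hℓ0 : ℓ ^ A ≠ 0 := by linarith
        field_simp
      linarith
    have h6 := mul_le_mul_of_nonneg_left hLge
      (mul_nonneg (show 0 ≤ forcedDensity u - η by rw [hη]; linarith) hy0.le)
    have h7 := mul_le_mul_of_nonneg_left (show y + ℓ ^ A ≤ y + m ^ A by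
      linarith [Real.rpow_le_rpow (by linarith) hℓm (show 0 ≤ A by linarith)])
      (mul_nonneg hc0 hmA.le)
    calc c₀ * m ^ (A - 1) * (m * (y + ℓ ^ A)) = c₀ * (m ^ (A - 1) * m) * (y + ℓ ^ A) := by ring
      _ = c₀ * m ^ A * (y + ℓ ^ A) := by rw [hm1]
      _ ≤ d * m * (y + ℓ ^ A) := by linarith
      _ = _ := by ring

/-- Intervals of length `(log x) ^ A` fall below any density `c > exp γ · ω u`, `A < u`. -/
theorem frequently_le {u A : ℝ} (hu : 2 < u) (hA : 1 < A) (hAu : A < u) {c : ℝ}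
    (hc : forcedDensity u < c) :
    ∃ᶠ x : ℝ in atTop,
      (π ⌊x + Real.log x ^ A⌋₊ : ℝ) - π ⌊x⌋₊ ≤ c * Real.log x ^ (A - 1) := by
  have hκ := forcedDensity_pos (show 1 ≤ u by linarith)
  obtain ⟨η, hη⟩ : ∃ η, η = (c - forcedDensity u) / 2 := ⟨_, rfl⟩
  obtain ⟨D, hD, hlong⟩ := exists_long_intervals hu (show 0 < η by rw [hη]; linarith)
  obtain ⟨hl, hr1, hr2⟩ := block_limits (show 0 < A by linarith) hAu D (by omega)
  have hlA := (tendsto_rpow_atTop (show 0 < A by linarith)).comp hl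
  have hy : Tendsto (fun z : ℕ => (z : ℝ) ^ u) atTop atTop :=
    (tendsto_rpow_atTop (by linarith)).comp tendsto_natCast_atTop_atTop
  have hlim : Tendsto (fun z : ℕ => c * (1 - Real.log (4 * ((primorial z ^ D : ℕ) : ℝ)) ^ A /
      (z : ℝ) ^ u - 2 / (z : ℝ) ^ u) - (forcedDensity u + η) *
        ((Real.log ((primorial z ^ D : ℕ) : ℝ) ^ A /
          Real.log (4 * ((primorial z ^ D : ℕ) : ℝ)) ^ A)⁻¹ +
          1 / Real.log ((primorial z ^ D : ℕ) : ℝ) ^ A)) atTop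
      (𝓝 (c * (1 - 0 - 0) - (forcedDensity u + η) * (1⁻¹ + 0))) :=
    (((hr1.const_sub 1).sub (hy.const_div_atTop 2)).const_mul c).sub
      (((hr2.inv₀ one_ne_zero).add (hlA.const_div_atTop 1)).const_mul _)
  rw [frequently_atTop]
  intro B
  obtain ⟨z, ⟨-, a, -, ha1, ha2, ha⟩, hz, hlz, hBz, hz1⟩ := (hlong.and
    ((hlim.eventually (eventually_gt_nhds (show (0 : ℝ) < c * (1 - 0 - 0) - (forcedDensity u + η) *
      (1⁻¹ + 0) by rw [hη, inv_one]; linarith))).and ((hl.eventually_gt_atTop 1).and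
    ((hl.eventually_ge_atTop (Real.log (max B 1))).and (eventually_ge_atTop 1))))).exists
  obtain ⟨X, hX⟩ : ∃ X, X = primorial z ^ D := ⟨_, rfl⟩
  rw [← hX] at ha1 ha2 ha hz hlz hBz
  obtain ⟨ℓ, hℓ⟩ : ∃ ℓ, ℓ = Real.log (X : ℝ) := ⟨_, rfl⟩
  obtain ⟨m, hm⟩ : ∃ m, m = Real.log (4 * (X : ℝ)) := ⟨_, rfl⟩
  obtain ⟨y, hy'⟩ : ∃ y, y = (z : ℝ) ^ u := ⟨_, rfl⟩
  rw [← hℓ] at hz hlz hBz ha
  rw [← hm] at hz
  rw [← hy'] at hz ha ha2
  have hy0 : 0 < y := hy' ▸ Real.rpow_pos_of_pos (Nat.cast_pos.2 hz1) u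
  have hX0' : (0 : ℝ) < X := Nat.cast_pos.2 (hX ▸ pow_pos (primorial_pos z) D)
  have hℓm : ℓ ≤ m := by
    rw [hℓ, hm]
    exact Real.log_le_log hX0' (by linarith)
  have hℓA : 0 < ℓ ^ A := Real.rpow_pos_of_pos (by linarith) A
  have hmA : 0 < m ^ A := Real.rpow_pos_of_pos (by linarith) A
  have h2 : (forcedDensity u + η) * (m ^ A + 1) * y < c * ℓ ^ A * (y - m ^ A - 2) := by
    have h4 := mul_pos hz (mul_pos hℓA hy0)
    have h5 : (c * (1 - m ^ A / y - 2 / y) - (forcedDensity u + η) * ((ℓ ^ A / m ^ A)⁻¹ +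
        1 / ℓ ^ A)) * (ℓ ^ A * y) = c * ℓ ^ A * (y - m ^ A - 2) -
          (forcedDensity u + η) * (m ^ A + 1) * y := by
      field_simp
    linarith
  have hden : 0 < y - m ^ A - 2 :=
    pos_of_mul_pos_right ((mul_nonneg (mul_nonneg (by rw [hη]; linarith) (by linarith))
      hy0.le).trans_lt h2) (mul_nonneg (by linarith) hℓA.le)
  obtain ⟨L, hL⟩ : ∃ L, L = ⌈m ^ A⌉₊ := ⟨_, rfl⟩
  have hLle : (L : ℝ) ≤ m ^ A + 1 := hL ▸ (Nat.ceil_lt_add_one hmA.le).le
  have hL0 : 0 < L := hL ▸ Nat.ceil_pos.2 hmA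
  have hY : y - 1 ≤ (⌊y⌋₊ : ℝ) := (Nat.sub_one_lt_floor y).le
  have hLY : L ≤ ⌊y⌋₊ := Nat.cast_le.1 (show (L : ℝ) ≤ ⌊y⌋₊ by linarith)
  obtain ⟨b, hb1, hb2, hb⟩ := exists_block_le a hL0 hLY
  obtain ⟨d, hd⟩ : ∃ d : ℝ, d = (π (b + L) : ℝ) - π b := ⟨_, rfl⟩
  rw [← hd] at hb
  have hd0 : 0 ≤ d :=
    hd ▸ sub_nonneg.2 (Nat.cast_le.2 (Nat.monotone_primeCounting (Nat.le_add_right b L)))
  have hbX : (X : ℝ) ≤ b := Nat.cast_le.2 (ha1.trans hb1)
  have hlb1 : ℓ ≤ Real.log b := hℓ ▸ Real.log_le_log hX0' hbX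
  have hlb2 : Real.log b ≤ m := by
    rw [hm]
    refine Real.log_le_log (by linarith) ?_
    have h1 : (b : ℝ) ≤ ((2 * X : ℕ) : ℝ) := Nat.cast_le.2 (by omega)
    push_cast at h1
    linarith
  refine ⟨b, ?_, ?_⟩
  · rw [hℓ, Real.log_le_log_iff (lt_max_of_lt_right one_pos) hX0'] at hBz
    linarith [le_max_left B 1]
  · rw [Nat.floor_natCast]
    have hmono : π ⌊(b : ℝ) + Real.log b ^ A⌋₊ ≤ π (b + L) := by
      refine Nat.monotone_primeCounting (Nat.floor_le_of_le ?_)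
      push_cast
      rw [hL]
      linarith [Nat.le_ceil (m ^ A),
        Real.rpow_le_rpow (by linarith) hlb2 (show 0 ≤ A by linarith)]
    refine le_trans (sub_le_sub_right (Nat.cast_le.2 hmono) _) ?_
    rw [← hd]
    refine le_trans ?_ (mul_le_mul_of_nonneg_left (Real.rpow_le_rpow (by linarith) hlb1
      (show 0 ≤ A - 1 by linarith)) (show 0 ≤ c by linarith))
    refine le_of_mul_le_mul_right ?_ (mul_pos (show 0 < ℓ by linarith) hden)
    have hℓ1 : ℓ ^ (A - 1) * ℓ = ℓ ^ A := by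
      rw [Real.rpow_sub_one (show ℓ ≠ 0 by linarith), div_mul_cancel₀ _ (by linarith)]
    calc d * (ℓ * (y - m ^ A - 2)) ≤ d * (ℓ * ((⌊y⌋₊ : ℝ) - L)) :=
          mul_le_mul_of_nonneg_left (mul_le_mul_of_nonneg_left (by linarith) (by linarith)) hd0
      _ = d * ((⌊y⌋₊ : ℝ) - L) * ℓ := by ring
      _ ≤ ((π (a + ⌊y⌋₊) : ℝ) - π a) * L * ℓ := mul_le_mul_of_nonneg_right hb (by linarith)
      _ = ((π (a + ⌊y⌋₊) : ℝ) - π a) * ℓ * L := by ring
      _ ≤ (forcedDensity u + η) * y * (m ^ A + 1) :=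
          (mul_le_mul_of_nonneg_right ha (Nat.cast_nonneg L)).trans
            (mul_le_mul_of_nonneg_left hLle (mul_nonneg (by rw [hη]; linarith) hy0.le))
      _ ≤ c * (ℓ ^ (A - 1) * ℓ) * (y - m ^ A - 2) := by rw [hℓ1]; linarith
      _ = _ := by ring

/-- **Maier's theorem.** -/
theorem exists_maier {A : ℝ} (hA : 1 < A) : ∃ δ : ℝ, 0 < δ ∧
    (∃ᶠ x : ℝ in atTop,
      (1 + δ) * Real.log x ^ (A - 1) ≤ (π ⌊x + Real.log x ^ A⌋₊ : ℝ) - π ⌊x⌋₊) ∧
      ∃ᶠ x : ℝ in atTop,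
        (π ⌊x + Real.log x ^ A⌋₊ : ℝ) - π ⌊x⌋₊ ≤ (1 - δ) * Real.log x ^ (A - 1) := by
  obtain ⟨u, hu, hu'⟩ := exists_buchstab_gt (v := A + 3) (by linarith)
  obtain ⟨w, hw, hw'⟩ := exists_buchstab_lt (v := A + 3) (by linarith)
  have h1 : 1 < forcedDensity u := (one_lt_div (Real.exp_pos _)).2 hu'
  have h2 : forcedDensity w < 1 := (div_lt_one (Real.exp_pos _)).2 hw'
  refine ⟨min (forcedDensity u - 1) (1 - forcedDensity w) / 2,
    by linarith [lt_min (sub_pos.2 h1) (sub_pos.2 h2)], ?_, ?_⟩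
  · refine frequently_ge (u := u) (by linarith [hu.1]) hA (by linarith [hu.1]) ?_
    linarith [min_le_left (forcedDensity u - 1) (1 - forcedDensity w)]
  · refine frequently_le (u := w) (by linarith [hw.1]) hA (by linarith [hw.1]) ?_
    linarith [min_le_right (forcedDensity u - 1) (1 - forcedDensity w)]

/-- The primes of `(x, x + (log x) ^ A]` do not have their expected asymptotic. -/
theorem not_tendsto_short_count {A : ℝ} (hA : 1 < A) :
    ¬ Tendsto (fun x : ℝ =>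
      ((π ⌊x + Real.log x ^ A⌋₊ : ℝ) - π ⌊x⌋₊) / Real.log x ^ (A - 1)) atTop (𝓝 1) := by
  intro h
  obtain ⟨δ, hδ, h1, -⟩ := exists_maier hA
  obtain ⟨x, hx, hx1, hx2⟩ := (h1.and_eventually ((h.eventually
    (eventually_lt_nhds (show (1 : ℝ) < 1 + δ by linarith))).and (eventually_gt_atTop 1))).exists
  rw [div_lt_iff₀ (Real.rpow_pos_of_pos (Real.log_pos hx2) _)] at hx1
  linarith

end FA.Maier
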